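import Fermat.Agent.S33.Alg.Defs

/-!
# S33-ALG : restriction of a Hecke-Galois module to a Galois-stable submodule
-/

set_option autoImplicit false

namespace Fermat.Agent.S33

open CuspForm Fermat.Agent.S31

/-- restriction of a Hecke-Galois module to a `G_ℚ`-stable submodule. -/
noncomputable def restrictHGM {N : ℕ} [NeZero N] {S : Set ℕ} {p k : ℕ} (M : HeckeGaloisModule N S p k)
    (Y : Submodule (heckeAlgebra N 2 S) M.W) (hY : ∀ (σ : GQ), ∀ y ∈ Y, M.r σ y ∈ Y) :
    HeckeGaloisModule N S p k where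
  W := Y
  r :=
    { toFun := fun σ => (M.r σ).restrict (hY σ)
      map_one' := by
        ext y
        simp
      map_mul' := fun σ τ => by
        ext y
        simp }
  level := by
    obtain ⟨L, hL, h⟩ := M.level
    refine ⟨L, hL, fun σ hσ => ?_⟩
    ext y
    simp [h σ hσ]
  killed := fun y => Subtype.ext (by simpa using M.killed (y : M.W))
  eichlerShimura := fun ℓ hℓ hℓN hℓS A hA σ hσ y =>
    Subtype.ext (by simpa using M.eichlerShimura ℓ hℓ hℓN hℓS A hA σ hσ (y : M.W))
  unramified := fun q hq hqN hqp P hP σ hσ => by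
    ext y
    simp [M.unramified q hq hqN hqp P hP σ hσ]

theorem restrictHGM_r_coe {N : ℕ} [NeZero N] {S : Set ℕ} {p k : ℕ}
    (M : HeckeGaloisModule N S p k) (Y : Submodule (heckeAlgebra N 2 S) M.W)
    (hY : ∀ (σ : GQ), ∀ y ∈ Y, M.r σ y ∈ Y) (σ : GQ) (y : Y) :
    (show Y from (restrictHGM M Y hY).r σ y).1 = M.r σ (y : M.W) := rfl

theorem restrictHGM_smul_coe {N : ℕ} [NeZero N] {S : Set ℕ} {p k : ℕ}
    (M : HeckeGaloisModule N S p k) (Y : Submodule (heckeAlgebra N 2 S) M.W)
    (hY : ∀ (σ : GQ), ∀ y ∈ Y, M.r σ y ∈ Y) (a : heckeAlgebra N 2 S) (y : Y) :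
    (show Y from (a • (show (restrictHGM M Y hY).W from y))).1 = a • (y : M.W) := rfl

end Fermat.Agent.S33
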