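import Fermat.Agent.S33.Alg.Socle
import Fermat.Agent.S33.Alg.Restrict

/-!
# S33-ALG : (F1) of the blueprint
-/

set_option autoImplicit false

namespace Fermat.Agent.S33

open CuspForm Fermat.Agent.S31

variable {p : ℕ} {N : ℕ} [NeZero N] {S : Finset ℕ}
  {𝒪 : Type} [CommRing 𝒪] [IsDomain 𝒪] [IsDiscreteValuationRing 𝒪]
  [IsAdicComplete (IsLocalRing.maximalIdeal 𝒪) 𝒪]
  {θ : CuspForm.heckeAlgebra N 2 (↑S : Set ℕ) →+* IsLocalRing.ResidueField 𝒪}
  {T : Type} [CommRing T] [IsLocalRing T] [IsNoetherianRing T]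
  [IsAdicComplete (IsLocalRing.maximalIdeal T) T] [Algebra 𝒪 T] [IsLocalHom (algebraMap 𝒪 T)]
  [Module.Finite 𝒪 T] [Module.Free 𝒪 T]

/-- a nonzero `𝔪`-primary Galois-stable submodule is faithful modulo `𝔪_T`.
[`y ≠ 0` killed by `𝔪` (`exists_socle`); `a ∉ 𝔪`: `a a' - 1 ∈ 𝔪`, `y = a' a y = 0`.] -/
theorem π_mem_of_smul_eq_zero [Finite (IsLocalRing.ResidueField 𝒪)]
    (H : CuspForm.HeckeGaloisRepDatum N (↑S : Set ℕ) 𝒪 θ T) {W : Type*} [AddCommGroup W]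
    [Module (heckeAlgebra N 2 (↑S : Set ℕ)) W] (Y : Submodule (heckeAlgebra N 2 (↑S : Set ℕ)) W)
    (hprim : Y ≤ prim (mIdeal H) W) (hne : Y ≠ ⊥) (a : heckeAlgebra N 2 (↑S : Set ℕ))
    (ha : ∀ y ∈ Y, a • y = 0) : H.π a ∈ IsLocalRing.maximalIdeal T := by
  obtain ⟨y, hyY, hy0, hy⟩ := exists_socle (mIdeal H) Y hprim hne
  rw [← mem_mIdeal H]
  by_contra hna
  obtain ⟨a', ha'⟩ := exists_mul_sub_one_mem H hna
  have h1 := hy _ ha'
  rw [sub_smul, one_smul, mul_comm, mul_smul, ha y hyY, smul_zero, zero_sub, neg_eq_zero] at h1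
  exact hy0 h1

/-- (F1).  [If `Y ≠ 0`: `S31.transfer_level` with `n = k = 1`, `M := restrictHGM M Y hY`
(faithful modulo `𝔪_T` by `π_mem_of_smul_eq_zero`), relation `σ - e = 0`: `ρ(σ) v - e v ∈ 𝔪_T V`,
so `det ρ(σ) - e ^ 2 ∈ 𝔪_T` (`S31.det_sub_mem`); `det ρ(σ) - d ∈ 𝔪_T` with `σ ζ = ζ ^ d`
(`S31.exists_trace_det_data`, `ζ` a primitive `p`-th root of unity), `d ≡ e mod p`
(`CycExp.modEq`); so `e (e - 1) ∈ 𝔪_T`; but `e - 1` and `e` are prime to `p`
(`p ∣ e` would give `σ ζ = 1`), hence units of `T` (`isUnit_intCast_of_isCoprime`).] -/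
theorem F1 [Finite (IsLocalRing.ResidueField 𝒪)] (hdens : FrobeniusDensity) (hp : p.Prime)
    (hp𝒪 : (p : 𝒪) ∈ IsLocalRing.maximalIdeal 𝒪) (hpS : p ∈ S)
    (hNS : ∀ q : ℕ, q.Prime → q ∣ N → q ∈ S)
    (H : CuspForm.HeckeGaloisRepDatum N (↑S : Set ℕ) 𝒪 θ T)
    (M : HeckeGaloisModule N (↑S : Set ℕ) p 1) (σ : GQ) (e : ℕ) (hσ : CycExp p σ e)
    (he : IsCoprime ((e : ℤ) - 1) (p : ℤ))
    (Y : Submodule (heckeAlgebra N 2 (↑S : Set ℕ)) M.W)
    (hY : ∀ (g : GQ), ∀ y ∈ Y, M.r g y ∈ Y) (hprim : Y ≤ prim (mIdeal H) M.W)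
    (hσY : ∀ y ∈ Y, M.r σ y = e • y) : Y = ⊥ := by
  classical
  by_contra hne
  have hM' : ∀ a : heckeAlgebra N 2 (↑S : Set ℕ), (∀ w : (restrictHGM M Y hY).W, a • w = 0) →
      H.π a ∈ IsLocalRing.maximalIdeal T ^ 1 := by
    intro a ha
    rw [pow_one]
    refine π_mem_of_smul_eq_zero H Y hprim hne a fun y hy => ?_
    exact congrArg Subtype.val (ha (show (restrictHGM M Y hY).W from (⟨y, hy⟩ : Y)))
  -- the relation `σ - e = 0`
  let x : GQ → heckeAlgebra N 2 (↑S : Set ℕ) := fun g =>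
    (if g = σ then 1 else 0) + (if g = 1 then -(e : heckeAlgebra N 2 (↑S : Set ℕ)) else 0)
  have hx : ∀ w : (restrictHGM M Y hY).W,
      ∑ g ∈ ({σ, 1} : Finset GQ), x g • (restrictHGM M Y hY).r g w = 0 := by
    intro w
    have h1 : ∑ g ∈ ({σ, 1} : Finset GQ), x g • (restrictHGM M Y hY).r g w =
        (restrictHGM M Y hY).r σ w + (-(e : heckeAlgebra N 2 (↑S : Set ℕ))) • w := by
      simp [x, add_smul, Finset.sum_add_distrib, ite_smul, Finset.sum_ite_eq']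
    rw [h1]
    have h2 : (restrictHGM M Y hY).r σ w = (e : heckeAlgebra N 2 (↑S : Set ℕ)) • w := by
      rw [Nat.cast_smul_eq_nsmul]
      exact Subtype.ext (hσY (show Y from w).1 (show Y from w).2)
    rw [h2, neg_smul, add_neg_cancel]
  have hV : ∀ v : H.ρ.V, H.ρ.ρ σ v - ((e : T) • (1 : Module.End T H.ρ.V)) v ∈
      IsLocalRing.maximalIdeal T • (⊤ : Submodule T H.ρ.V) := by
    intro v
    have h1 := transfer_level hdens hp hpS hNS H 1 1 (restrictHGM M Y hY) hM' {σ, 1} x hx v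
    have h2 : ∑ g ∈ ({σ, 1} : Finset GQ), H.π (x g) • H.ρ.ρ g v =
        H.ρ.ρ σ v - ((e : T) • (1 : Module.End T H.ρ.V)) v := by
      simp [x, add_smul, Finset.sum_add_distrib, ite_smul, Finset.sum_ite_eq', apply_ite H.π,
        sub_eq_add_neg]
    rw [h2, pow_one] at h1
    exact h1
  have hdet1 := det_sub_mem (IsLocalRing.maximalIdeal T) (H.ρ.ρ σ)
    ((e : T) • (1 : Module.End T H.ρ.V)) hV
  rw [LinearMap.det_smul, H.ρ.finrank_eq, map_one, mul_one] at hdet1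
  -- the determinant is cyclotomic
  have : NeZero (p : ℚ) := ⟨by exact_mod_cast hp.ne_zero⟩
  obtain ⟨ζ, hζ⟩ := HasEnoughRootsOfUnity.exists_primitiveRoot (AlgebraicClosure ℚ) p
  obtain ⟨t, d, -, -, hdet2, hσζ⟩ := exists_trace_det_data hdens hp hpS hNS H 1 1 M ζ
    (by rw [pow_one]; exact hζ.pow_eq_one) σ
  rw [pow_one] at hdet2
  have hmod : e ≡ d [MOD p] := CycExp.modEq hp hσ (cycExp_of_primitive hp hζ hσζ)
  have hpT : (p : T) ∈ IsLocalRing.maximalIdeal T := natCast_mem_maximalIdeal hp𝒪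
  have hde : (d : T) - (e : T) ∈ IsLocalRing.maximalIdeal T := by
    obtain ⟨c, hc⟩ := (Nat.modEq_iff_dvd.1 hmod)
    have h1 : (d : T) - (e : T) = (p : T) * (c : T) := by
      have := congrArg (Int.cast : ℤ → T) hc
      push_cast at this
      exact this
    rw [h1]
    exact Ideal.mul_mem_right _ _ hpT
  have hee : (e : T) * ((e : T) - 1) ∈ IsLocalRing.maximalIdeal T := by
    have h1 : (e : T) * ((e : T) - 1) =
        (LinearMap.det (H.ρ.ρ σ) - (d : T)) + ((d : T) - (e : T)) -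
          (LinearMap.det (H.ρ.ρ σ) - (e : T) ^ 2) := by ring
    rw [h1]
    exact Ideal.sub_mem _ (Ideal.add_mem _ hdet2 hde) hdet1
  -- `e` and `e - 1` are units
  have hpe : ¬ p ∣ e := by
    rintro ⟨c, rfl⟩
    have h1 := hσ ζ hζ.pow_eq_one
    rw [pow_mul, hζ.pow_eq_one, one_pow] at h1
    have h2 : ζ = 1 := by
      have := congrArg σ.symm h1
      rwa [AlgEquiv.symm_apply_apply, map_one] at this
    exact hp.one_lt.ne' (hζ.unique (h2 ▸ IsPrimitiveRoot.one))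
  have hu1 : IsUnit ((e : ℤ) : T) := isUnit_intCast_of_isCoprime hp𝒪
    (Nat.isCoprime_iff_coprime.2 ((Nat.Prime.coprime_iff_not_dvd hp).2 hpe).symm)
  have hu2 : IsUnit ((((e : ℤ) - 1 : ℤ)) : T) := isUnit_intCast_of_isCoprime hp𝒪 he
  have hu : IsUnit ((e : T) * ((e : T) - 1)) := by
    have := hu1.mul hu2
    push_cast at this
    exact this
  exact (IsLocalRing.mem_maximalIdeal _).1 hee hu

end Fermat.Agent.S33
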