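import Fermat.Prelude.Def_GaloisRep_LocalConditions
import Mathlib

/-!
# S33-ALG : residually ordinary ⟹ `tr ρ(τ) = 1 + det ρ(τ)` modulo `𝔪_T` for `τ` in inertia
-/

set_option autoImplicit false

namespace Fermat.Agent.S33

/-- linear algebra: `(f - 1) V ⊆ k b₀` implies `tr f = 1 + det f`. -/
theorem TraceRes_trace_eq {k V : Type*} [CommRing k] [AddCommGroup V] [Module k V]
    (b : Module.Basis (Fin 2) k V) (f : Module.End k V)
    (h : ∀ v : V, f v - v ∈ Submodule.span k {b 0}) :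
    LinearMap.trace k V f = 1 + LinearMap.det f := by
  obtain ⟨c₀, hc₀⟩ := Submodule.mem_span_singleton.1 (h (b 0))
  obtain ⟨c₁, hc₁⟩ := Submodule.mem_span_singleton.1 (h (b 1))
  have h0 : f (b 0) = b 0 + c₀ • b 0 := by rw [hc₀]; abel
  have h1 : f (b 1) = b 1 + c₁ • b 0 := by rw [hc₁]; abel
  rw [LinearMap.trace_eq_matrix_trace k b f, ← LinearMap.det_toMatrix b f, Matrix.trace_fin_two,
    Matrix.det_fin_two]
  simp only [LinearMap.toMatrix_apply, h0, h1, map_add, map_smul, Module.Basis.repr_self,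
    Finsupp.add_apply, Finsupp.smul_apply, Finsupp.single_apply, smul_eq_mul]
  simp
  ring

/-- [`hres` gives a basis `b` of `V̄ = k ⊗ V` with `(ρ̄(τ) - 1) V̄ ⊆ k b 0`: the matrix of `ρ̄(τ)` is
`[[α, β], [0, 1]]`, so `tr = 1 + det`; `LinearMap.trace_baseChange`, `LinearMap.det_baseChange`
and `IsLocalRing.residue_eq_zero_iff`.] -/
theorem trace_sub_one_sub_det_mem {T : Type} [CommRing T] [IsLocalRing T] (ρ : GaloisRepAdic T)
    (p : ℕ) (hres : (GaloisRepAdic.ofResidualGaloisRep ρ.residual).IsOrdinaryAt p)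
    (P : ValuationSubring (AlgebraicClosure ℚ)) (hP : P.LiesOverPrime p)
    (τ : AlgebraicClosure ℚ ≃ₐ[ℚ] AlgebraicClosure ℚ) (hτ : τ ∈ P.inertiaSubgroupIn ℚ) :
    LinearMap.trace T ρ.V (ρ.ρ τ) - 1 - LinearMap.det (ρ.ρ τ) ∈ IsLocalRing.maximalIdeal T := by
  obtain ⟨L, ⟨b, hb⟩, -, hL⟩ := hres P hP
  have h1 := TraceRes_trace_eq b ((GaloisRepAdic.ofResidualGaloisRep ρ.residual).ρ τ)
    (fun v => hb ▸ hL τ hτ v)
  have h2 : LinearMap.trace (IsLocalRing.ResidueField T) (TensorProduct T (IsLocalRing.ResidueField T) ρ.V)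
      ((ρ.ρ τ).baseChange (IsLocalRing.ResidueField T)) =
      1 + LinearMap.det ((ρ.ρ τ).baseChange (IsLocalRing.ResidueField T)) := h1
  rw [LinearMap.trace_baseChange, LinearMap.det_baseChange] at h2
  rw [← IsLocalRing.residue_eq_zero_iff, map_sub, map_sub, map_one]
  rw [IsLocalRing.ResidueField.algebraMap_eq] at h2
  rw [h2]
  ring

end Fermat.Agent.S33
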