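import Mathlib

/-!
# S33-ALG : a group of unipotent automorphisms of a finite `p`-torsion group has a fixed vector
-/

set_option autoImplicit false

namespace Fermat.Agent.S33

theorem Unip_pow_apply {Y : Type*} [AddCommGroup Y] (T : AddMonoid.End Y)
    (hT : ∀ y : Y, T (T y) - 2 • T y + y = 0) (n : ℕ) (y : Y) :
    (T ^ n) y = y + n • (T y - y) := by
  induction n generalizing y with
  | zero => simp
  | succ n ih =>
    rw [pow_succ]
    change (T ^ n) (T y) = _
    rw [ih (T y)]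
    have h1 : T (T y) - T y = T y - y := by
      have := hT y
      rw [two_nsmul] at this
      have h2 : T (T y) - T y - (T y - y) = 0 := by
        rw [← this]
        abel
      exact sub_eq_zero.1 h2
    rw [h1, succ_nsmul]
    abel

/-- [`(γ - 1) ^ 2 = 0` and `p Y = 0` give `γ ^ p = 1` on `Y`; so the image of `Γ` in the
permutations of `Y` is a `p`-group; `#Y` is divisible by `p` and `0` is a fixed point:
`IsPGroup.exists_fixed_point_of_prime_dvd_card_of_fixed_point`.] -/
theorem exists_fixed_of_unipotent {p : ℕ} (hp : p.Prime) {Γ : Type*} [Group Γ] {Y : Type*}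
    [AddCommGroup Y] [Finite Y] [Nontrivial Y] (hpY : ∀ y : Y, p • y = 0)
    (ρ : Γ →* AddMonoid.End Y) (hu : ∀ (γ : Γ) (y : Y), ρ γ (ρ γ y) - 2 • ρ γ y + y = 0) :
    ∃ y : Y, y ≠ 0 ∧ ∀ γ : Γ, ρ γ y = y := by
  have : Fact p.Prime := ⟨hp⟩
  have hG : IsPGroup p ρ.toHomUnits.range := by
    rintro ⟨g, γ, rfl⟩
    refine ⟨1, ?_⟩
    rw [pow_one]
    apply Subtype.ext
    apply Units.ext
    ext y
    change ((ρ γ) ^ p) y = y
    rw [Unip_pow_apply (ρ γ) (hu γ), hpY, add_zero]
  have hcard : p ∣ Nat.card Y := by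
    obtain ⟨y, hy⟩ := exists_ne (0 : Y)
    have h1 : addOrderOf y ∣ p := addOrderOf_dvd_of_nsmul_eq_zero (hpY y)
    rcases (Nat.dvd_prime hp).1 h1 with h | h
    · exact absurd (AddMonoid.addOrderOf_eq_one_iff.1 h) hy
    · rw [← h]
      exact addOrderOf_dvd_natCard y
  have h0 : (0 : Y) ∈ MulAction.fixedPoints ρ.toHomUnits.range Y := by
    rintro ⟨g, γ, rfl⟩
    change ρ γ 0 = 0
    exact map_zero _
  obtain ⟨b, hb, hb0⟩ := hG.exists_fixed_point_of_prime_dvd_card_of_fixed_point Y hcard h0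
  refine ⟨b, hb0.symm, fun γ => ?_⟩
  exact hb ⟨ρ.toHomUnits γ, γ, rfl⟩

end Fermat.Agent.S33
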