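import Fermat.Agent.S33.Alg.Socle
import Fermat.Agent.S33.Alg.Unip
import Fermat.Agent.S33.Alg.TraceRes

/-!
# S33-ALG : (F2) of the blueprint
-/

set_option autoImplicit false

namespace Fermat.Agent.S33

open CuspForm Fermat.Agent.S31

/-- the socle `{y ∈ Y : 𝔪 y = 0}`. -/
def F2_socle {A W : Type*} [CommRing A] [AddCommGroup W] [Module A W] (𝔪 : Ideal A)
    (Y : Submodule A W) : Submodule A W where
  carrier := {y | y ∈ Y ∧ ∀ a ∈ 𝔪, a • y = 0}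
  zero_mem' := ⟨Y.zero_mem, fun a _ => smul_zero a⟩
  add_mem' := by
    rintro x y ⟨hx, hx'⟩ ⟨hy, hy'⟩
    exact ⟨Y.add_mem hx hy, fun a ha => by rw [smul_add, hx' a ha, hy' a ha, add_zero]⟩
  smul_mem' := by
    rintro c x ⟨hx, hx'⟩
    exact ⟨Y.smul_mem c hx, fun a ha => by rw [smul_comm, hx' a ha, smul_zero]⟩

/-- the action of a subgroup on a stable submodule. -/
def F2_act {A W : Type*} [CommRing A] [AddCommGroup W] [Module A W] {G : Type*} [Group G]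
    (r : G →* Module.End A W) (Z : Submodule A W) (hZ : ∀ g : G, ∀ y ∈ Z, r g y ∈ Z)
    (Γ : Subgroup G) : Γ →* AddMonoid.End Z where
  toFun γ := ((r (γ : G)).restrict (hZ γ)).toAddMonoidHom
  map_one' := by
    ext y
    show r (1 : G) (y : W) = y
    rw [map_one]
    rfl
  map_mul' := by
    intro γ γ'
    ext y
    show r ((γ : G) * (γ' : G)) (y : W) = r (γ : G) (r (γ' : G) (y : W))
    rw [map_mul]
    rfl

theorem F2_act_coe {A W : Type*} [CommRing A] [AddCommGroup W] [Module A W] {G : Type*} [Group G]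
    (r : G →* Module.End A W) (Z : Submodule A W) (hZ : ∀ g : G, ∀ y ∈ Z, r g y ∈ Z)
    (Γ : Subgroup G) (γ : Γ) (y : Z) : ((F2_act r Z hZ Γ γ y : Z) : W) = r (γ : G) (y : W) := rfl

/-- the abstract form of (F2). -/
theorem F2_abstract {p : ℕ} (hp : p.Prime) {A W : Type*} [CommRing A] [AddCommGroup W]
    [Module A W] [Finite W] {G : Type*} [Group G] (r : G →* Module.End A W) (𝔪 : Ideal A)
    (Y : Submodule A W) (hY : ∀ g : G, ∀ y ∈ Y, r g y ∈ Y) (hprim : Y ≤ prim 𝔪 W) (hne : Y ≠ ⊥)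
    (hpW : ∀ w : W, p • w = 0) (Γ : Subgroup G)
    (hΓ : ∀ τ ∈ Γ, ∃ (t : A) (d : ℕ), (∀ w : W, r τ (r τ w) - t • r τ w + (d : A) • w = 0) ∧
      t - 2 ∈ 𝔪 ∧ d ≡ 1 [MOD p]) :
    ∃ y ∈ Y, y ≠ 0 ∧ ∀ τ ∈ Γ, r τ y = y := by
  have hY1 : ∀ (g : G), ∀ y ∈ F2_socle 𝔪 Y, r g y ∈ F2_socle 𝔪 Y := by
    rintro g y ⟨hy, hy'⟩
    exact ⟨hY g y hy, fun a ha => by rw [← map_smul, hy' a ha, map_zero]⟩
  have hnt : Nontrivial (F2_socle 𝔪 Y) := by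
    obtain ⟨y, hy, hy0, hy'⟩ := exists_socle 𝔪 Y hprim hne
    exact ⟨⟨⟨y, hy, hy'⟩, 0, fun h => hy0 (congrArg Subtype.val h)⟩⟩
  have hu : ∀ (γ : Γ) (y : F2_socle 𝔪 Y),
      F2_act r _ hY1 Γ γ (F2_act r _ hY1 Γ γ y) - 2 • F2_act r _ hY1 Γ γ y + y = 0 := by
    rintro ⟨τ, hτ⟩ y
    obtain ⟨t, d, h1, ht, hd⟩ := hΓ τ hτ
    apply Subtype.ext
    have h9 := h1 (y : W)
    have h10 : t • r τ (y : W) = 2 • r τ (y : W) := by
      have h11 := (hY1 τ y y.2).2 _ ht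
      rw [sub_smul, sub_eq_zero] at h11
      rw [h11, ofNat_smul_eq_nsmul]
    have h12 : (d : A) • (y : W) = (y : W) := by
      rw [Nat.cast_smul_eq_nsmul]
      obtain ⟨c, hc⟩ := (Nat.modEq_iff_dvd.mp hd)
      have h13 : ((d : ℤ)) • (y : W) = (y : W) := by
        have h14 : (d : ℤ) = 1 - c * (p : ℤ) := by push_cast at hc; linarith
        rw [h14, sub_smul, one_smul, mul_smul, natCast_zsmul, hpW, smul_zero, sub_zero]
      rwa [natCast_zsmul] at h13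
    rw [h10, h12] at h9
    exact h9
  obtain ⟨y, hy0, hy⟩ := exists_fixed_of_unipotent hp (fun y => Subtype.ext (hpW y))
    (F2_act r _ hY1 Γ) hu
  refine ⟨y, y.2.1, fun h => hy0 (Subtype.ext h), fun τ hτ => ?_⟩
  exact congrArg Subtype.val (hy ⟨τ, hτ⟩)

/-- the subgroup `{τ ∈ I : CycExp p τ 1}`. -/
def F2_Gamma (p : ℕ) (P : ValuationSubring (AlgebraicClosure ℚ)) : Subgroup GQ where
  carrier := {τ | τ ∈ P.inertiaSubgroupIn ℚ ∧ CycExp p τ 1}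
  one_mem' := ⟨Subgroup.one_mem _, fun ζ _ => by rw [pow_one]; rfl⟩
  mul_mem' := by
    rintro σ τ ⟨hσ, hσ'⟩ ⟨hτ, hτ'⟩
    refine ⟨Subgroup.mul_mem _ hσ hτ, fun ζ hζ => ?_⟩
    have h1 := hσ' ζ hζ
    have h2 := hτ' ζ hζ
    rw [pow_one] at h1 h2 ⊢
    rw [AlgEquiv.mul_apply, h2, h1]
  inv_mem' := by
    rintro σ ⟨hσ, hσ'⟩
    refine ⟨Subgroup.inv_mem _ hσ, fun ζ hζ => ?_⟩
    have h1 := hσ' ζ hζ
    rw [pow_one] at h1 ⊢
    calc σ⁻¹ ζ = σ⁻¹ (σ ζ) := by rw [h1]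
      _ = ζ := AlgEquiv.symm_apply_apply σ ζ

variable {p : ℕ} {N : ℕ} [NeZero N] {S : Finset ℕ}
  {𝒪 : Type} [CommRing 𝒪] [IsDomain 𝒪] [IsDiscreteValuationRing 𝒪]
  [IsAdicComplete (IsLocalRing.maximalIdeal 𝒪) 𝒪]
  {θ : CuspForm.heckeAlgebra N 2 (↑S : Set ℕ) →+* IsLocalRing.ResidueField 𝒪}
  {T : Type} [CommRing T] [IsLocalRing T] [IsNoetherianRing T]
  [IsAdicComplete (IsLocalRing.maximalIdeal T) T] [Algebra 𝒪 T] [IsLocalHom (algebraMap 𝒪 T)]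
  [Module.Finite 𝒪 T] [Module.Free 𝒪 T]

/-- (F2).  [`Y1 := {y ∈ Y : 𝔪 y = 0}` is `≠ 0` (`exists_socle`) and `G`-stable.  For `τ ∈ I` with
`CycExp p τ 1`: `S31.exists_trace_det_data` (`n = k = 1`, `ζ` primitive `p`-th root of unity) gives
`t, d` with `τ² - t τ + d = 0` on `M.W`, `tr ρ(τ) - π t ∈ 𝔪_T`, `det ρ(τ) - d ∈ 𝔪_T`, `d ≡ 1 mod p`;
with `trace_sub_one_sub_det_mem`: `t - 2 ∈ 𝔪`; so `τ² - 2 τ + 1 = 0` on `Y1`.
`exists_fixed_of_unipotent` for `Γ := ` the subgroup `{τ ∈ I : CycExp p τ 1}` acting on `Y1`.] -/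
theorem F2 (hdens : FrobeniusDensity) (hp : p.Prime)
    (hp𝒪 : (p : 𝒪) ∈ IsLocalRing.maximalIdeal 𝒪) (hpS : p ∈ S)
    (hNS : ∀ q : ℕ, q.Prime → q ∣ N → q ∈ S)
    (H : CuspForm.HeckeGaloisRepDatum N (↑S : Set ℕ) 𝒪 θ T)
    (hres : (GaloisRepAdic.ofResidualGaloisRep H.ρ.residual).IsOrdinaryAt p)
    (P : ValuationSubring (AlgebraicClosure ℚ)) (hP : P.LiesOverPrime p)
    (M : HeckeGaloisModule N (↑S : Set ℕ) p 1) [Finite M.W]
    (Y : Submodule (heckeAlgebra N 2 (↑S : Set ℕ)) M.W)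
    (hY : ∀ (g : GQ), ∀ y ∈ Y, M.r g y ∈ Y) (hprim : Y ≤ prim (mIdeal H) M.W) (hne : Y ≠ ⊥) :
    ∃ y ∈ Y, y ≠ 0 ∧ ∀ τ ∈ P.inertiaSubgroupIn ℚ, CycExp p τ 1 → M.r τ y = y := by
  have hne0 : NeZero (p : ℚ) := ⟨by exact_mod_cast hp.ne_zero⟩
  have hpW : ∀ w : M.W, p • w = 0 := by
    intro w
    have := M.killed w
    rwa [pow_one] at this
  obtain ⟨y, hy, hy0, hfix⟩ := F2_abstract hp M.r (mIdeal H) Y hY hprim hne hpW (F2_Gamma p P) (by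
    rintro τ ⟨hτ, hτ'⟩
    obtain ⟨ζ, hζ⟩ := HasEnoughRootsOfUnity.exists_primitiveRoot (AlgebraicClosure ℚ) p
    obtain ⟨t, d, h1, h2, h3, h4⟩ := exists_trace_det_data hdens hp hpS hNS H 1 1 M ζ
      (by rw [pow_one]; exact hζ.pow_eq_one) τ
    rw [pow_one] at h2 h3
    have hd : d ≡ 1 [MOD p] := (cycExp_of_primitive hp hζ h4).modEq hp hτ'
    refine ⟨t, d, h1, ?_, hd⟩
    have hpT : (p : T) ∈ IsLocalRing.maximalIdeal T := natCast_mem_maximalIdeal hp𝒪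
    have hdT : (d : T) - 1 ∈ IsLocalRing.maximalIdeal T := by
      obtain ⟨c, hc⟩ := (Nat.modEq_iff_dvd.mp hd)
      have h5 := congrArg (Int.cast : ℤ → T) hc
      push_cast at h5
      have h6 : (d : T) - 1 = (p : T) * (-(c : T)) := by linear_combination -h5
      rw [h6]
      exact Ideal.mul_mem_right _ _ hpT
    have h7 := trace_sub_one_sub_det_mem H.ρ p hres P hP τ hτ
    rw [mem_mIdeal, map_sub, map_ofNat]
    have h8 : H.π t - 2 = -(LinearMap.trace T H.ρ.V (H.ρ.ρ τ) - H.π t) +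
        (LinearMap.trace T H.ρ.V (H.ρ.ρ τ) - 1 - LinearMap.det (H.ρ.ρ τ)) +
        (LinearMap.det (H.ρ.ρ τ) - (d : T)) + ((d : T) - 1) := by ring
    rw [h8]
    exact Ideal.add_mem _ (Ideal.add_mem _ (Ideal.add_mem _ ((Ideal.neg_mem_iff _).2 h2) h7) h3)
      hdT)
  exact ⟨y, hy, hy0, fun τ hτ hτ' => hfix τ ⟨hτ, hτ'⟩⟩

end Fermat.Agent.S33
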