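import Fermat.Agent.S33.Alg.LinAlg
import Fermat.Prelude.Def_GaloisRep_LocalConditions

/-!
# S33-ALG : (A0) of the blueprint : from the identities (I1), (I2) to the ordinary line
-/

set_option autoImplicit false

namespace Fermat.Agent.S33

/-- the inertia group is normal in the decomposition group. -/
theorem conj_mem_inertia (P : ValuationSubring (AlgebraicClosure ℚ))
    {g σ : AlgebraicClosure ℚ ≃ₐ[ℚ] AlgebraicClosure ℚ} (hg : g ∈ P.decompositionSubgroup ℚ)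
    (hσ : σ ∈ P.inertiaSubgroupIn ℚ) : g * σ * g⁻¹ ∈ P.inertiaSubgroupIn ℚ := by
  unfold ValuationSubring.inertiaSubgroupIn at hσ ⊢
  obtain ⟨t, ht, rfl⟩ := Subgroup.mem_map.mp hσ
  have hn : (P.inertiaSubgroup ℚ).Normal := by
    unfold ValuationSubring.inertiaSubgroup
    exact MonoidHom.normal_ker _
  have h1 := hn.conj_mem t ht (⟨g, hg⟩ : P.decompositionSubgroup ℚ)
  have h2 := Subgroup.mem_map_of_mem (P.decompositionSubgroup ℚ).subtype h1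
  rw [map_mul, map_mul, map_inv] at h2
  exact h2

/-- (A0).  [`L := ker (ρ(σ₀) - a) = T b 0` (`exists_basis_ker`); `(τ - 1) V ⊆ L` is (I2);
`v ∈ L` ⟹ `v = (σ₀ - 1) u` with `u = (a - 1)⁻¹ v`; `g v = (g σ₀ g⁻¹ - 1) (g u) ∈ L`.] -/
theorem exists_ordinary_line {T : Type} [CommRing T] [IsLocalRing T] (ρ : GaloisRepAdic T)
    (P : ValuationSubring (AlgebraicClosure ℚ))
    (σ₀ : AlgebraicClosure ℚ ≃ₐ[ℚ] AlgebraicClosure ℚ) (hσ₀ : σ₀ ∈ P.inertiaSubgroupIn ℚ)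
    (a : T) (ha : IsUnit (a - 1)) (hdet : LinearMap.det (ρ.ρ σ₀) = a)
    (hI1 : ∀ v : ρ.V, ρ.ρ σ₀ (ρ.ρ σ₀ v) - (1 + a) • ρ.ρ σ₀ v + a • v = 0)
    (hI2 : ∀ τ ∈ P.inertiaSubgroupIn ℚ, ∀ v : ρ.V,
      ρ.ρ σ₀ (ρ.ρ τ v - v) - a • (ρ.ρ τ v - v) = 0) :
    ∃ L : Submodule T ρ.V,
      (∃ b : Module.Basis (Fin 2) T ρ.V, L = T ∙ b 0) ∧
      (∀ σ ∈ P.decompositionSubgroup ℚ, ∀ v ∈ L, ρ.ρ σ v ∈ L) ∧
      (∀ σ ∈ P.inertiaSubgroupIn ℚ, ∀ v : ρ.V, ρ.ρ σ v - v ∈ L) := by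
  have hu : IsUnit a := by
    rw [← hdet]
    exact ((Group.isUnit σ₀).map ρ.ρ).map LinearMap.det
  obtain ⟨b, hb⟩ := exists_basis_ker ρ.finrank_eq (ρ.ρ σ₀) a ha hu.ne_zero hI1 hdet
  have hmem : ∀ v : ρ.V, v ∈ LinearMap.ker (ρ.ρ σ₀ - a • (1 : Module.End T ρ.V)) ↔
      ρ.ρ σ₀ v - a • v = 0 := by
    intro v
    rw [LinearMap.mem_ker]
    rfl
  have hin : ∀ σ ∈ P.inertiaSubgroupIn ℚ, ∀ v : ρ.V,
      ρ.ρ σ v - v ∈ LinearMap.ker (ρ.ρ σ₀ - a • (1 : Module.End T ρ.V)) :=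
    fun σ hσ v => (hmem _).mpr (hI2 σ hσ v)
  refine ⟨LinearMap.ker (ρ.ρ σ₀ - a • (1 : Module.End T ρ.V)), ⟨b, hb⟩, fun g hg v hv => ?_, hin⟩
  obtain ⟨c, hc⟩ := ha
  have hv' : ρ.ρ σ₀ v = a • v := sub_eq_zero.mp ((hmem v).mp hv)
  -- `v = (σ₀ - 1) u`
  obtain ⟨u, hu'⟩ : ∃ u : ρ.V, v = ρ.ρ σ₀ u - u := by
    refine ⟨(↑c⁻¹ : T) • v, ?_⟩
    have h3 : a • v - v = (c : T) • v := by rw [hc, sub_smul, one_smul]
    rw [map_smul, hv', ← smul_sub, h3, smul_smul, Units.inv_mul, one_smul]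
  have h1 := hin (g * σ₀ * g⁻¹) (conj_mem_inertia P hg hσ₀) (ρ.ρ g u)
  have h2 : ρ.ρ (g * σ₀ * g⁻¹) (ρ.ρ g u) - ρ.ρ g u = ρ.ρ g v := by
    rw [hu', map_sub, ← Module.End.mul_apply, ← map_mul, ← Module.End.mul_apply, ← map_mul]
    congr 3
    group
  rwa [h2] at h1

end Fermat.Agent.S33
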