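import Fermat.Agent.S33.Alg.Defs

/-!
# S33-ALG : (A6) of the blueprint, abstractly : (K4) from (P), (G), (S), (N), (F1), (F2)
-/

set_option autoImplicit false

namespace Fermat.Agent.S33

variable {A : Type*} [CommRing A] {G : Type*} [Group G]
  {X : Type*} [AddCommGroup X] [Module A X]

/-- (A6).  `YY := {y ∈ X[𝔪^∞] : g y ∈ K₁ ∀ g}` is a submodule stable under `G`, `w`, `Pop`.
`Y0 := Pop YY ⊆ K0 ∩ X0 ∩ YY`.  The chain `Pop^i Y0` is decreasing, hence stationary (`X` finite):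
`Z := Pop^i Y0 = Pop^(i+1) Y0`; (G) + (F1) give `Z = 0`.  If `Y0 ≠ 0` take the last `i` with
`Pop^i Y0 ≠ 0`: it is killed by `Pop`; (F2) + (S): contradiction.  So `Pop = 0` on `YY`;
(N) + (F1) give `YY = 0`. -/
theorem K4_of [Finite X] (𝔪 : Ideal A) (r₁ : G →* Module.End A X)
    (K₁ X0 K0 : AddSubgroup X) (w Pop : X →ₗ[A] X)
    (w_gal : ∀ (g : G) (x : X), w (r₁ g x) = r₁ g (w x))
    (Pop_gal : ∀ (g : G) (x : X), Pop (r₁ g x) = r₁ g (Pop x))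
    (hK2 : ∀ a : A, ∀ x ∈ K₁, a • x ∈ K₁)
    (P1 : ∀ x, Pop x ∈ X0) (P2 : ∀ x ∈ K₁, Pop x ∈ K0) (P3 : K0 ≤ K₁) (P4 : ∀ x ∈ K₁, w x ∈ K₁)
    (σ : G) (e : ℕ) (I' : Set G)
    (hG : ∀ Z : Submodule A X, (∀ (g : G), ∀ z ∈ Z, r₁ g z ∈ Z) → (∀ z ∈ Z, z ∈ K0) →
      (∀ z ∈ Z, Pop z ∈ Z) → (∀ z ∈ Z, ∃ z' ∈ Z, Pop z' = z) → ∀ z ∈ Z, r₁ σ z = e • z)
    (hS : ∀ z ∈ X0, Pop z = 0 → (∀ τ ∈ I', r₁ τ z = z) → z = 0)
    (hN : ∀ z ∈ K₁, w z ∈ K₁ → Pop z = 0 → Pop (w z) = 0 → r₁ σ z = e • z)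
    (F1 : ∀ Y : Submodule A X, (∀ (g : G), ∀ y ∈ Y, r₁ g y ∈ Y) → Y ≤ prim 𝔪 X →
      (∀ y ∈ Y, r₁ σ y = e • y) → Y = ⊥)
    (F2 : ∀ Y : Submodule A X, (∀ (g : G), ∀ y ∈ Y, r₁ g y ∈ Y) → Y ≤ prim 𝔪 X → Y ≠ ⊥ →
      ∃ y ∈ Y, y ≠ 0 ∧ ∀ τ ∈ I', r₁ τ y = y) :
    ∀ y ∈ prim 𝔪 X, (∀ g : G, r₁ g y ∈ K₁) → y = 0 := by
  -- the submodule `YY`
  let YY : Submodule A X :=
    { carrier := {y | y ∈ prim 𝔪 X ∧ ∀ g : G, r₁ g y ∈ K₁}
      zero_mem' := ⟨(prim 𝔪 X).zero_mem, fun g => by rw [map_zero]; exact K₁.zero_mem⟩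
      add_mem' := by
        rintro x y ⟨hx, hx'⟩ ⟨hy, hy'⟩
        exact ⟨(prim 𝔪 X).add_mem hx hy, fun g => by rw [map_add]; exact K₁.add_mem (hx' g) (hy' g)⟩
      smul_mem' := by
        rintro a x ⟨hx, hx'⟩
        exact ⟨(prim 𝔪 X).smul_mem a hx, fun g => by rw [map_smul]; exact hK2 a _ (hx' g)⟩ }
  have hYYmem : ∀ y, y ∈ YY ↔ y ∈ prim 𝔪 X ∧ ∀ g : G, r₁ g y ∈ K₁ := fun y => Iff.rfl
  have hYYgal : ∀ (g : G), ∀ y ∈ YY, r₁ g y ∈ YY := by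
    rintro g y ⟨hy, hy'⟩
    refine ⟨map_mem_prim (r₁ g) hy, fun h => ?_⟩
    have : r₁ h (r₁ g y) = r₁ (h * g) y := by rw [map_mul]; rfl
    rw [this]
    exact hy' _
  have hYYw : ∀ y ∈ YY, w y ∈ YY := by
    rintro y ⟨hy, hy'⟩
    exact ⟨map_mem_prim w hy, fun g => by rw [← w_gal]; exact P4 _ (hy' g)⟩
  have hYYP : ∀ y ∈ YY, Pop y ∈ YY := by
    rintro y ⟨hy, hy'⟩
    exact ⟨map_mem_prim Pop hy, fun g => by rw [← Pop_gal]; exact P3 (P2 _ (hy' g))⟩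
  have hYYK : ∀ y ∈ YY, y ∈ K₁ := by
    rintro y ⟨-, hy'⟩
    have := hy' 1
    rwa [map_one] at this
  -- the chain
  let Sq : ℕ → Submodule A X := fun i => YY.map (Pop ^ i)
  have hS0 : Sq 0 = YY := by
    show YY.map (Pop ^ 0) = YY
    rw [pow_zero]
    exact Submodule.map_id YY
  have hSsucc : ∀ i, Sq (i + 1) = (Sq i).map Pop := by
    intro i
    show YY.map (Pop ^ (i + 1)) = (YY.map (Pop ^ i)).map Pop
    rw [pow_succ', ← Submodule.map_comp]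
    rfl
  have hSle : ∀ i, Sq i ≤ YY := by
    intro i
    induction i with
    | zero => rw [hS0]
    | succ i ih =>
      rw [hSsucc]
      rintro _ ⟨y, hy, rfl⟩
      exact hYYP y (ih hy)
  have hSanti : ∀ i, Sq (i + 1) ≤ Sq i := by
    intro i
    induction i with
    | zero => rw [hS0]; exact hSle 1
    | succ i ih =>
      rw [hSsucc (i + 1)]
      conv_rhs => rw [hSsucc i]
      exact Submodule.map_mono ih
  have hSgal : ∀ i (g : G), ∀ y ∈ Sq i, r₁ g y ∈ Sq i := by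
    intro i
    induction i with
    | zero => rw [hS0]; exact hYYgal
    | succ i ih =>
      rw [hSsucc]
      rintro g _ ⟨y, hy, rfl⟩
      exact ⟨r₁ g y, ih g y hy, Pop_gal g y⟩
  have hSprim : ∀ i, Sq i ≤ prim 𝔪 X := fun i y hy => (hSle i hy).1
  have hSK0 : ∀ i, ∀ y ∈ Sq (i + 1), y ∈ K0 := by
    intro i
    rw [hSsucc]
    rintro _ ⟨y, hy, rfl⟩
    exact P2 y (hYYK y (hSle i hy))
  have hSX0 : ∀ i, ∀ y ∈ Sq (i + 1), y ∈ X0 := by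
    intro i
    rw [hSsucc]
    rintro _ ⟨y, hy, rfl⟩
    exact P1 y
  -- the chain is stationary
  have hstat : ∃ n, Sq (n + 1) = Sq (n + 2) := by
    have : IsArtinian A X := inferInstance
    let f : ℕ →o (Submodule A X)ᵒᵈ :=
      ⟨fun i => OrderDual.toDual (Sq i), monotone_nat_of_le_succ fun i => hSanti i⟩
    obtain ⟨n, hn⟩ := IsArtinian.monotone_stabilizes f
    refine ⟨n, ?_⟩
    have h1 := hn (n + 1) (by omega)
    have h2 := hn (n + 2) (by omega)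
    exact OrderDual.toDual.injective (h1.symm.trans h2)
  obtain ⟨n, hn⟩ := hstat
  have hZ : Sq (n + 1) = ⊥ := by
    refine F1 _ (hSgal _) (hSprim _) ?_
    refine hG _ (hSgal _) (hSK0 n) ?_ ?_
    · intro z hz
      have : Pop z ∈ Sq (n + 2) := by
        rw [hSsucc (n + 1)]
        exact ⟨z, hz, rfl⟩
      exact hSanti (n + 1) this
    · intro z hz
      rw [hn, hSsucc (n + 1)] at hz
      obtain ⟨z', hz', rfl⟩ := hz
      exact ⟨z', hz', rfl⟩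
  have hdown : ∀ j, Sq (j + 1) = ⊥ → Sq 1 = ⊥ := by
    intro j
    induction j with
    | zero => exact id
    | succ j ih =>
      intro hj
      apply ih
      by_contra hne
      obtain ⟨y, hy, hy0, hfix⟩ := F2 _ (hSgal (j + 1)) (hSprim _) hne
      apply hy0
      refine hS y (hSX0 j y hy) ?_ hfix
      have : Pop y ∈ Sq (j + 1 + 1) := by
        rw [hSsucc (j + 1)]
        exact ⟨y, hy, rfl⟩
      rw [hj] at this
      exact (Submodule.mem_bot A).1 this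
  have hS1 : Sq 1 = ⊥ := hdown n hZ
  have hPop0 : ∀ y ∈ YY, Pop y = 0 := by
    intro y hy
    have : Pop y ∈ Sq 1 := by
      rw [hSsucc 0, hS0]
      exact ⟨y, hy, rfl⟩
    rw [hS1] at this
    exact (Submodule.mem_bot A).1 this
  have hYY : YY = ⊥ := by
    refine F1 YY hYYgal (fun y hy => hy.1) ?_
    intro y hy
    exact hN y (hYYK y hy) (hYYK _ (hYYw y hy)) (hPop0 y hy) (hPop0 _ (hYYw y hy))
  intro y hy hy'
  have : y ∈ YY := ⟨hy, hy'⟩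
  rw [hYY] at this
  exact (Submodule.mem_bot A).1 this

end Fermat.Agent.S33
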