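import Fermat.Agent.S33.Alg.Defs

/-!
# S33-ALG : the polarised Cayley-Hamilton identity and its consequence (first half of (A4))
-/

set_option autoImplicit false

namespace Fermat.Agent.S33

variable {A : Type*} [CommRing A] {G : Type*} [Group G]
  {X : Type*} [AddCommGroup X] [Module A X]

/-- the identity in a (noncommutative) algebra. -/
theorem PolCH_alg {E : Type*} [Ring E] [Algebra A E] (α β : E) (hu : IsUnit (α * β))
    (ta tb tab da db : A)
    (hα : α * α - ta • α + da • (1 : E) = 0) (hβ : β * β - tb • β + db • (1 : E) = 0)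
    (hαβ : (α * β) * (α * β) - tab • (α * β) + (da * db) • (1 : E) = 0) :
    α * β + β * α - ta • β - tb • α + (ta * tb - tab) • (1 : E) = 0 := by
  have h1 : β * (tb • (1 : E) - β) = db • (1 : E) := by
    have : β * (tb • (1 : E) - β) = db • (1 : E) - (β * β - tb • β + db • (1 : E)) := by
      rw [mul_sub, mul_smul_comm, mul_one]; abel
    rw [this, hβ, sub_zero]
  have h2 : α * (ta • (1 : E) - α) = da • (1 : E) := by
    have : α * (ta • (1 : E) - α) = da • (1 : E) - (α * α - ta • α + da • (1 : E)) := by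
      rw [mul_sub, mul_smul_comm, mul_one]; abel
    rw [this, hα, sub_zero]
  have h3 : (α * β) * (tab • (1 : E) - α * β) = (da * db) • (1 : E) := by
    have : (α * β) * (tab • (1 : E) - α * β) = (da * db) • (1 : E) -
        ((α * β) * (α * β) - tab • (α * β) + (da * db) • (1 : E)) := by
      rw [mul_sub, mul_smul_comm, mul_one]; abel
    rw [this, hαβ, sub_zero]
  have h4 : (α * β) * ((tb • (1 : E) - β) * (ta • (1 : E) - α)) = (da * db) • (1 : E) := by
    rw [mul_assoc, ← mul_assoc β, h1, smul_mul_assoc, one_mul, mul_smul_comm, h2, smul_smul,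
      mul_comm]
  have h5 : tab • (1 : E) - α * β = (tb • (1 : E) - β) * (ta • (1 : E) - α) :=
    hu.mul_left_cancel (h3.trans h4.symm)
  have h6 : (tb • (1 : E) - β) * (ta • (1 : E) - α) =
      (ta * tb) • (1 : E) - tb • α - ta • β + β * α := by
    rw [sub_mul, mul_sub, mul_sub, smul_mul_assoc, one_mul, smul_mul_assoc, one_mul,
      mul_smul_comm, mul_one, smul_smul, mul_comm tb ta]
    abel
  rw [h6] at h5
  have : α * β + β * α - ta • β - tb • α + (ta * tb - tab) • (1 : E) =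
      ((ta * tb) • (1 : E) - tb • α - ta • β + β * α) - (tab • (1 : E) - α * β) := by
    rw [sub_smul]; abel
  rw [this, h5, sub_self]

/-- POLARISED CH.  [`(ab)(t(ab) - ab) = d(ab) = d(a) d(b) = (ab)(t(b) - b)(t(a) - a)` and `ab` is
invertible, so `t(ab) - ab = (t(b) - b)(t(a) - a)`.] -/
theorem polarised_CH (r₁ : G →* Module.End A X) (t d : G → A)
    (hCH : ∀ (g : G) (x : X), r₁ g (r₁ g x) - t g • r₁ g x + d g • x = 0)
    (hd : ∀ (g h : G) (x : X), d (g * h) • x = (d g * d h) • x) (a b : G) (x : X) :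
    r₁ a (r₁ b x) + r₁ b (r₁ a x) - t a • r₁ b x - t b • r₁ a x
      + (t a * t b - t (a * b)) • x = 0 := by
  have hu : IsUnit (r₁ a * r₁ b) := by
    rw [← map_mul]
    exact (Group.isUnit (a * b)).map r₁
  have key := PolCH_alg (A := A) (r₁ a) (r₁ b) hu (t a) (t b) (t (a * b)) (d a) (d b)
    (LinearMap.ext fun y => by simpa using hCH a y)
    (LinearMap.ext fun y => by simpa using hCH b y)
    (LinearMap.ext fun y => by
      have := hCH (a * b) y
      rw [hd a b y] at this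
      simpa using this)
  have := LinearMap.congr_fun key x
  simpa using this

/-- first half of (A4): an `𝔪`-primary, `σ`-fixed element of `K₁` has all its conjugates in `K₁`.
[polarised CH with `a = σ`, `b = g` applied to `y`: `(σ - e) g y = (t(σ g) - e t(g)) y ∈ K₁`;
`(σ - 1) g y ∈ K₁`; subtract: `(1 - e) g y ∈ K₁`; `p • g y = 0`; Bezout.] -/
theorem conj_mem_of_fixed (p : ℕ) (𝔪 : Ideal A) (r₁ : G →* Module.End A X) (K₁ : AddSubgroup X)
    (hkill : ∀ x : X, p • x = 0) (t d : G → A)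
    (hCH : ∀ (g : G) (x : X), r₁ g (r₁ g x) - t g • r₁ g x + d g • x = 0)
    (hd : ∀ (g h : G) (x : X), d (g * h) • x = (d g * d h) • x)
    (σ : G) (e : ℕ) (he : IsCoprime ((e : ℤ) - 1) (p : ℤ))
    (ht : ∀ x ∈ prim 𝔪 X, t σ • x = ((1 : A) + (e : A)) • x)
    (hK1 : ∀ x : X, r₁ σ x - x ∈ K₁) (hK2 : ∀ a : A, ∀ x ∈ K₁, a • x ∈ K₁) :
    ∀ y ∈ prim 𝔪 X, y ∈ K₁ → r₁ σ y = y → ∀ g : G, r₁ g y ∈ K₁ := by
  intro y hy hyK hσ g
  have hP := polarised_CH r₁ t d hCH hd σ g y
  rw [hσ, ht _ (map_mem_prim (r₁ g) hy)] at hP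
  -- `σ g y - e g y ∈ K₁`
  have h1 : r₁ σ (r₁ g y) - e • r₁ g y ∈ K₁ := by
    have : r₁ σ (r₁ g y) - e • r₁ g y = (t g - (t σ * t g - t (σ * g))) • y := by
      have h0 : r₁ σ (r₁ g y) - e • r₁ g y =
          (r₁ σ (r₁ g y) + r₁ g y - ((1 : A) + (e : A)) • r₁ g y - t g • y
            + (t σ * t g - t (σ * g)) • y) + (t g - (t σ * t g - t (σ * g))) • y := by
        rw [add_smul, one_smul, Nat.cast_smul_eq_nsmul, sub_smul (t g)]
        abel
      rw [h0, hP, zero_add]
    rw [this]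
    exact hK2 _ _ hyK
  have h2 : ((e : ℤ) - 1) • r₁ g y ∈ K₁ := by
    have : ((e : ℤ) - 1) • r₁ g y =
        (r₁ σ (r₁ g y) - r₁ g y) - (r₁ σ (r₁ g y) - e • r₁ g y) := by
      rw [sub_smul, one_smul, natCast_zsmul]; abel
    rw [this]
    exact K₁.sub_mem (hK1 _) h1
  obtain ⟨u, v, huv⟩ := he
  have : r₁ g y = u • (((e : ℤ) - 1) • r₁ g y) := by
    have h3 : (1 : ℤ) • r₁ g y = (u * ((e : ℤ) - 1) + v * (p : ℤ)) • r₁ g y := by rw [huv]
    rw [one_smul, add_smul, mul_smul, mul_smul, natCast_zsmul, hkill, smul_zero, add_zero] at h3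
    exact h3
  rw [this]
  exact K₁.zsmul_mem h2 u

end Fermat.Agent.S33
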