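import Fermat.Agent.S33.Alg.Socle
import Fermat.Agent.S31x.Transfer

/-!
# S33-ALG : (A1) of the blueprint : transfer of relations from `W_k[𝔪^∞]` to `V / 𝔪_T ^ n V`
-/

set_option autoImplicit false

namespace Fermat.Agent.S33

open CuspForm Fermat.Agent.S31

variable {p : ℕ} {N : ℕ} [NeZero N] {S : Finset ℕ}
  {𝒪 : Type} [CommRing 𝒪] [IsDomain 𝒪] [IsDiscreteValuationRing 𝒪]
  [IsAdicComplete (IsLocalRing.maximalIdeal 𝒪) 𝒪]
  {θ : CuspForm.heckeAlgebra N 2 (↑S : Set ℕ) →+* IsLocalRing.ResidueField 𝒪}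
  {T : Type} [CommRing T] [IsLocalRing T] [IsNoetherianRing T]
  [IsAdicComplete (IsLocalRing.maximalIdeal T) T] [Algebra 𝒪 T] [IsLocalHom (algebraMap 𝒪 T)]
  [Module.Finite 𝒪 T] [Module.Free 𝒪 T]

/-- `S31.transfer_level` for a family `g : ι → G_ℚ` with possible repetitions.
[`s := image g`, `x' h := ∑_{i : g i = h} x i`; `Finset.sum_fiberwise`-type rewriting.] -/
theorem transfer_family (hdens : FrobeniusDensity) (hp : p.Prime) (hpS : p ∈ S)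
    (hNS : ∀ q : ℕ, q.Prime → q ∣ N → q ∈ S)
    (H : CuspForm.HeckeGaloisRepDatum N (↑S : Set ℕ) 𝒪 θ T) (n k : ℕ)
    (M : HeckeGaloisModule N (↑S : Set ℕ) p k)
    (hM : ∀ a : heckeAlgebra N 2 (↑S : Set ℕ), (∀ w : M.W, a • w = 0) →
      H.π a ∈ IsLocalRing.maximalIdeal T ^ n)
    {ι : Type} [Fintype ι] (g : ι → GQ) (x : ι → heckeAlgebra N 2 (↑S : Set ℕ))
    (hx : ∀ w : M.W, ∑ i, x i • M.r (g i) w = 0) (v : H.ρ.V) :
    ∑ i, H.π (x i) • H.ρ.ρ (g i) v ∈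
      (IsLocalRing.maximalIdeal T ^ n) • (⊤ : Submodule T H.ρ.V) := by
  exact transfer_level_index hdens hp hpS hNS H n k M hM Finset.univ x g hx v

/-- (A1).  A relation on `W[𝔪^∞]` transfers.  [`c` from `exists_smul_mem_prim`; the relation
`∑ (c x i) g i` kills `W`; `π c` is a unit.] -/
theorem transfer_prim (hdens : FrobeniusDensity) (hp : p.Prime) (hpS : p ∈ S)
    (hNS : ∀ q : ℕ, q.Prime → q ∣ N → q ∈ S)
    (H : CuspForm.HeckeGaloisRepDatum N (↑S : Set ℕ) 𝒪 θ T) (n k : ℕ)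
    (M : HeckeGaloisModule N (↑S : Set ℕ) p k) [Finite M.W]
    (hM : ∀ a : heckeAlgebra N 2 (↑S : Set ℕ), (∀ w : M.W, a • w = 0) →
      H.π a ∈ IsLocalRing.maximalIdeal T ^ n)
    {ι : Type} [Fintype ι] (g : ι → GQ) (x : ι → heckeAlgebra N 2 (↑S : Set ℕ))
    (hx : ∀ w ∈ prim (mIdeal H) M.W, ∑ i, x i • M.r (g i) w = 0) (v : H.ρ.V) :
    ∑ i, H.π (x i) • H.ρ.ρ (g i) v ∈
      (IsLocalRing.maximalIdeal T ^ n) • (⊤ : Submodule T H.ρ.V) := by
  obtain ⟨c, hc, hcW⟩ := exists_smul_mem_prim (W := M.W) (mIdeal H)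
  have h1 := transfer_family hdens hp hpS hNS H n k M hM g (fun i => c * x i) (by
    intro w
    rw [← hx (c • w) (hcW w)]
    refine Finset.sum_congr rfl fun i _ => ?_
    rw [map_smul, smul_smul, mul_comm]) v
  obtain ⟨u, hu⟩ := isUnit_π_of_sub_one_mem H hc
  have h2 : ∑ i, H.π (x i) • H.ρ.ρ (g i) v =
      ((u⁻¹ : Tˣ) : T) • ∑ i, H.π (c * x i) • H.ρ.ρ (g i) v := by
    rw [Finset.smul_sum]
    refine Finset.sum_congr rfl fun i _ => ?_
    rw [map_mul, ← hu, smul_smul, ← mul_assoc, Units.inv_mul, one_mul]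
  rw [h2]
  exact Submodule.smul_mem _ _ h1

end Fermat.Agent.S33
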