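import Fermat.Agent.S33.Alg.Level
import Fermat.Agent.S33.Alg.PolCH
import Fermat.Agent.S33.Alg.K4
import Fermat.Agent.S33.Alg.Transfer
import Fermat.Agent.S33.Alg.F1
import Fermat.Agent.S33.Alg.F2
import Fermat.Agent.S33.Alg.Final

/-!
# S33-ALG : assembly
-/

set_option autoImplicit false

namespace Fermat.Agent.S33

open CuspForm Fermat.Agent.S31

variable {p : ℕ} {N : ℕ} [NeZero N] {S : Finset ℕ}
  {𝒪 : Type} [CommRing 𝒪] [IsDomain 𝒪] [IsDiscreteValuationRing 𝒪]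
  [IsAdicComplete (IsLocalRing.maximalIdeal 𝒪) 𝒪]
  {θ : CuspForm.heckeAlgebra N 2 (↑S : Set ℕ) →+* IsLocalRing.ResidueField 𝒪}
  {T : Type} [CommRing T] [IsLocalRing T] [IsNoetherianRing T]
  [IsAdicComplete (IsLocalRing.maximalIdeal T) T] [Algebra 𝒪 T] [IsLocalHom (algebraMap 𝒪 T)]
  [Module.Finite 𝒪 T] [Module.Free 𝒪 T]

/-- (K4) for the tower. -/
theorem Main_K4 [Finite (IsLocalRing.ResidueField 𝒪)] (hdens : FrobeniusDensity) (hp : p.Prime)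
    (hp𝒪 : (p : 𝒪) ∈ IsLocalRing.maximalIdeal 𝒪) (hpS : p ∈ S)
    (hNS : ∀ q : ℕ, q.Prime → q ∣ N → q ∈ S)
    (H : CuspForm.HeckeGaloisRepDatum N (↑S : Set ℕ) 𝒪 θ T)
    (hres : (GaloisRepAdic.ofResidualGaloisRep H.ρ.residual).IsOrdinaryAt p)
    (𝒯 : OrdTower N (↑S : Set ℕ) p) (P : ValuationSubring (AlgebraicClosure ℚ))
    (hP : P.LiesOverPrime p) (L : OrdLocal 𝒯 P) (σ₀ : GQ) (hσ₀ : σ₀ ∈ P.inertiaSubgroupIn ℚ)
    (e : ℕ) (hσe : CycExp p σ₀ e) (he : IsCoprime ((e : ℤ) - 1) (p : ℤ)) :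
    ∀ y ∈ prim (mIdeal H) (𝒯.M 1).W, (∀ g : GQ, (𝒯.M 1).r g y ∈ L.K 1) → y = 0 := by
  haveI := 𝒯.finite 1
  exact K4_of (mIdeal H) (𝒯.M 1).r (L.K 1) L.X0 L.K0 L.w L.Pop L.w_gal L.Pop_gal L.K2 L.P1 L.P2
    L.P3 L.P4 σ₀ e {τ | τ ∈ P.inertiaSubgroupIn ℚ ∧ CycExp p τ 1}
    (fun Z h1 h2 h3 h4 => L.hG Z h1 h2 h3 h4 σ₀ hσ₀ e hσe)
    (fun z hz hz0 hfix => L.hS z hz hz0 (fun τ hτ hτ1 => hfix τ ⟨hτ, hτ1⟩))
    (fun z hz hwz h0 h0' => L.hN z hz hwz h0 h0' σ₀ hσ₀ e hσe)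
    (fun Y hY hprim hσY => F1 hdens hp hp𝒪 hpS hNS H (𝒯.M 1) σ₀ e hσe he Y hY hprim hσY)
    (fun Y hY hprim hne => by
      obtain ⟨y, hy, hy0, hfix⟩ := F2 hdens hp hp𝒪 hpS hNS H hres P hP (𝒯.M 1) Y hY hprim hne
      exact ⟨y, hy, hy0, fun τ hτ => hfix τ hτ.1 hτ.2⟩)

/-- the level data of the tower at level `k ≥ 1`. -/
theorem Main_levelData (𝔪 : Ideal (heckeAlgebra N 2 (↑S : Set ℕ)))
    (𝒯 : OrdTower N (↑S : Set ℕ) p) (P : ValuationSubring (AlgebraicClosure ℚ))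
    (L : OrdLocal 𝒯 P)
    (hK4 : ∀ y ∈ prim 𝔪 (𝒯.M 1).W, (∀ g : GQ, (𝒯.M 1).r g y ∈ L.K 1) → y = 0)
    (k : ℕ) (hk : 1 ≤ k) :
    LevelData p k 𝔪 (𝒯.M k).r (𝒯.M 1).r (𝒯.red k) (L.K k) (L.K 1) where
  killed := (𝒯.M k).killed
  killed₁ := fun x => by simpa using (𝒯.M 1).killed x
  tors := 𝒯.tors k
  red_ker := 𝒯.red_ker k hk
  red_gal := 𝒯.red_gal k
  K3 := L.K3 k
  K4 := hK4

/-- the level data at level `1` with `red = id`. -/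
theorem Main_levelData_one (𝔪 : Ideal (heckeAlgebra N 2 (↑S : Set ℕ)))
    (𝒯 : OrdTower N (↑S : Set ℕ) p) (P : ValuationSubring (AlgebraicClosure ℚ))
    (L : OrdLocal 𝒯 P)
    (hK4 : ∀ y ∈ prim 𝔪 (𝒯.M 1).W, (∀ g : GQ, (𝒯.M 1).r g y ∈ L.K 1) → y = 0) :
    LevelData p 1 𝔪 (𝒯.M 1).r (𝒯.M 1).r LinearMap.id (L.K 1) (L.K 1) where
  killed := (𝒯.M 1).killed
  killed₁ := fun x => by simpa using (𝒯.M 1).killed x
  tors := 𝒯.tors 1
  red_ker := fun x hx => ⟨0, by simpa using hx⟩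
  red_gal := fun _ _ => rfl
  K3 := fun j hj x hx => by
    obtain rfl : j = 0 := by omega
    simpa using hx
  K4 := hK4

/-- `σ` does not act trivially on `μ_p` ⟹ its exponent is `≢ 1`. -/
theorem Main_coprime (hp : p.Prime) {σ : GQ} {e : ℕ} (hσe : CycExp p σ e)
    (hne : ∃ ζ : AlgebraicClosure ℚ, ζ ^ p = 1 ∧ σ ζ ≠ ζ) : IsCoprime ((e : ℤ) - 1) (p : ℤ) := by
  obtain ⟨ζ, hζ, hσζ⟩ := hne
  refine IsCoprime.symm ((Nat.prime_iff_prime_int.mp hp).coprime_iff_not_dvd.mpr fun hdvd => ?_)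
  apply hσζ
  have h1 : 1 ≡ e [MOD p] := (Nat.modEq_iff_dvd).mpr (by simpa using hdvd)
  have h2 : 1 ≡ e [MOD orderOf ζ] := h1.of_dvd (orderOf_dvd_of_pow_eq_one hζ)
  rw [hσe ζ hζ]
  have hfin : IsOfFinOrder ζ := isOfFinOrder_iff_pow_eq_one.mpr ⟨p, hp.pos, hζ⟩
  exact (hfin.pow_eq_pow_iff_modEq.mpr h2).symm.trans (pow_one ζ)

/-- the hypothesis `hfix` of (A4), (A5). -/
theorem Main_hfix (hdens : FrobeniusDensity) (hp : p.Prime) (hpS : p ∈ S)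
    (hNS : ∀ q : ℕ, q.Prime → q ∣ N → q ∈ S)
    (H : CuspForm.HeckeGaloisRepDatum N (↑S : Set ℕ) 𝒪 θ T)
    (𝒯 : OrdTower N (↑S : Set ℕ) p) (P : ValuationSubring (AlgebraicClosure ℚ))
    (L : OrdLocal 𝒯 P) (σ₀ : GQ) (hσ₀ : σ₀ ∈ P.inertiaSubgroupIn ℚ)
    (hne : ∃ ζ : AlgebraicClosure ℚ, ζ ^ p = 1 ∧ σ₀ ζ ≠ ζ)
    (hK4 : ∀ y ∈ prim (mIdeal H) (𝒯.M 1).W, (∀ g : GQ, (𝒯.M 1).r g y ∈ L.K 1) → y = 0) :
    ∀ y ∈ prim (mIdeal H) (𝒯.M 1).W, y ∈ L.K 1 → (𝒯.M 1).r σ₀ y = y →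
      ∀ g : GQ, (𝒯.M 1).r g y ∈ L.K 1 := by
  haveI : NeZero (p : ℚ) := ⟨by exact_mod_cast hp.ne_zero⟩
  obtain ⟨ζ, hζ⟩ := HasEnoughRootsOfUnity.exists_primitiveRoot (AlgebraicClosure ℚ) p
  choose t d hCH _ _ hζd using
    exists_trace_det_data hdens hp hpS hNS H 1 1 (𝒯.M 1) ζ (by simpa using hζ.pow_eq_one)
  have hkill : ∀ x : (𝒯.M 1).W, p • x = 0 := fun x => by simpa using (𝒯.M 1).killed x
  have hσe : CycExp p σ₀ (d σ₀) := cycExp_of_primitive hp hζ (hζd σ₀)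
  have he := Main_coprime hp hσe hne
  have D1 := Main_levelData_one (mIdeal H) 𝒯 P L hK4
  have ht : ∀ x ∈ prim (mIdeal H) (𝒯.M 1).W,
      t σ₀ • x = ((1 : heckeAlgebra N 2 (↑S : Set ℕ)) + (d σ₀ : heckeAlgebra N 2 (↑S : Set ℕ))) • x := by
    intro x hx
    have := D1.smul_eq_zero σ₀ (t σ₀) (d σ₀) (hCH σ₀) (L.K1 1 σ₀ hσ₀) x hx
    rw [sub_sub, sub_smul, sub_eq_zero] at this
    exact this
  refine conj_mem_of_fixed p (mIdeal H) (𝒯.M 1).r (L.K 1) hkill t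
    (fun g => ((d g : ℕ) : heckeAlgebra N 2 (↑S : Set ℕ))) hCH ?_ σ₀ (d σ₀) he ht (L.K1 1 σ₀ hσ₀) L.K2
  intro g h w
  have h1 : CycExp p (g * h) (d g * d h) := by
    refine cycExp_of_primitive hp hζ ?_
    rw [AlgEquiv.mul_apply, hζd h, map_pow, hζd g, ← pow_mul]
  have h2 : d (g * h) ≡ d g * d h [MOD p] :=
    (cycExp_of_primitive hp hζ (hζd (g * h))).modEq hp h1
  rw [← Nat.cast_mul, Nat.cast_smul_eq_nsmul, Nat.cast_smul_eq_nsmul]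
  have key : ∀ a b : ℕ, a ≤ b → a ≡ b [MOD p] → a • w = b • w := by
    intro a b hab hmod
    obtain ⟨c, hc⟩ := (Nat.modEq_iff_dvd' hab).mp hmod
    have : b = a + c * p := by rw [mul_comm, ← hc]; omega
    rw [this, add_smul, mul_smul, hkill, smul_zero, add_zero]
  rcases le_total (d (g * h)) (d g * d h) with hle | hle
  · exact key _ _ hle h2
  · exact (key _ _ hle h2.symm).symm

/-- the identities (I1), (I2) modulo `𝔪_T ^ (n + 1)`. -/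
theorem Main_level (hdens : FrobeniusDensity) (hp : p.Prime)
    (hp𝒪 : (p : 𝒪) ∈ IsLocalRing.maximalIdeal 𝒪) (hpS : p ∈ S)
    (hNS : ∀ q : ℕ, q.Prime → q ∣ N → q ∈ S)
    (H : CuspForm.HeckeGaloisRepDatum N (↑S : Set ℕ) 𝒪 θ T)
    (𝒯 : OrdTower N (↑S : Set ℕ) p) (P : ValuationSubring (AlgebraicClosure ℚ))
    (L : OrdLocal 𝒯 P) (σ₀ : GQ) (hσ₀ : σ₀ ∈ P.inertiaSubgroupIn ℚ)
    (hK4 : ∀ y ∈ prim (mIdeal H) (𝒯.M 1).W, (∀ g : GQ, (𝒯.M 1).r g y ∈ L.K 1) → y = 0)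
    (hfix : ∀ y ∈ prim (mIdeal H) (𝒯.M 1).W, y ∈ L.K 1 → (𝒯.M 1).r σ₀ y = y →
      ∀ g : GQ, (𝒯.M 1).r g y ∈ L.K 1) (n : ℕ) :
    ∃ d : ℕ, CycExp p σ₀ d ∧
      LinearMap.det (H.ρ.ρ σ₀) - (d : T) ∈ IsLocalRing.maximalIdeal T ^ (n + 1) ∧
      (∀ v : H.ρ.V, H.ρ.ρ σ₀ (H.ρ.ρ σ₀ v) - (1 + (d : T)) • H.ρ.ρ σ₀ v + (d : T) • v ∈
        (IsLocalRing.maximalIdeal T ^ (n + 1)) • (⊤ : Submodule T H.ρ.V)) ∧
      (∀ τ ∈ P.inertiaSubgroupIn ℚ, ∀ v : H.ρ.V,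
        H.ρ.ρ σ₀ (H.ρ.ρ τ v - v) - (d : T) • (H.ρ.ρ τ v - v) ∈
          (IsLocalRing.maximalIdeal T ^ (n + 1)) • (⊤ : Submodule T H.ρ.V)) := by
  haveI : NeZero (p : ℚ) := ⟨by exact_mod_cast hp.ne_zero⟩
  obtain ⟨k, hk⟩ : ∃ k, k = n + 1 + 𝒯.c₀ := ⟨_, rfl⟩
  have hk1 : 1 ≤ k := by omega
  obtain ⟨ζ, hζ⟩ := HasEnoughRootsOfUnity.exists_primitiveRoot (AlgebraicClosure ℚ) (p ^ k)
  obtain ⟨t, d, hCH, -, hdet, hζd⟩ :=
    exists_trace_det_data hdens hp hpS hNS H (n + 1) k (𝒯.M k) ζ hζ.pow_eq_one σ₀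
  haveI := 𝒯.finite k
  have D := Main_levelData (mIdeal H) 𝒯 P L hK4 k hk1
  have hM : ∀ a : heckeAlgebra N 2 (↑S : Set ℕ), (∀ w : (𝒯.M k).W, a • w = 0) →
      H.π a ∈ IsLocalRing.maximalIdeal T ^ (n + 1) := fun a ha =>
    faithful_mod hp hp𝒪 H (n + 1) a (by
      obtain ⟨c, a', hc, hca⟩ := 𝒯.faithful k a ha
      rw [hk, Nat.add_sub_cancel] at hca
      exact ⟨c, a', hc, hca⟩)
  refine ⟨d, cycExp_of_primitive_pow hp hk1 hζ hζd, hdet, fun v => ?_, fun τ hτ v => ?_⟩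
  · have := transfer_prim hdens hp hpS hNS H (n + 1) k (𝒯.M k) hM
      ![σ₀ * σ₀, σ₀, 1] ![1, -(1 + (d : heckeAlgebra N 2 (↑S : Set ℕ))), (d : heckeAlgebra N 2 (↑S : Set ℕ))]
      (by
        intro w hw
        have h1 := D.I1 σ₀ t d hCH (L.K1 k σ₀ hσ₀) w hw
        simp only [Fin.sum_univ_three, Matrix.cons_val_zero, Matrix.cons_val_one,
          Matrix.cons_val_two, Matrix.head_cons, Matrix.tail_cons, map_mul, map_one,
          Module.End.mul_apply, Module.End.one_apply, one_smul, neg_smul]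
        rw [← sub_eq_add_neg]
        exact h1) v
    simp only [Fin.sum_univ_three, Matrix.cons_val_zero, Matrix.cons_val_one,
      Matrix.cons_val_two, Matrix.head_cons, Matrix.tail_cons, map_mul, map_one,
      Module.End.mul_apply, Module.End.one_apply, one_smul, neg_smul, map_neg, map_add,
      map_natCast] at this
    rw [← sub_eq_add_neg] at this
    exact this
  · have := transfer_prim hdens hp hpS hNS H (n + 1) k (𝒯.M k) hM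
      ![σ₀ * τ, σ₀, τ, 1] ![1, -1, -(d : heckeAlgebra N 2 (↑S : Set ℕ)), (d : heckeAlgebra N 2 (↑S : Set ℕ))]
      (by
        intro w hw
        have h1 := D.I2 σ₀ τ t d hCH (L.K1 k σ₀ hσ₀) (L.K1 k τ hτ) hfix w hw
        simp only [Fin.sum_univ_four, Matrix.cons_val_zero, Matrix.cons_val_one,
          Matrix.cons_val_two, Matrix.cons_val_three, Matrix.head_cons, Matrix.tail_cons, map_mul,
          map_one, Module.End.mul_apply, Module.End.one_apply, one_smul, neg_smul]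
        rw [map_sub, smul_sub] at h1
        rw [← h1]
        abel) v
    simp only [Fin.sum_univ_four, Matrix.cons_val_zero, Matrix.cons_val_one,
      Matrix.cons_val_two, Matrix.cons_val_three, Matrix.head_cons, Matrix.tail_cons, map_mul,
      map_one, Module.End.mul_apply, Module.End.one_apply, one_smul, neg_smul, map_neg,
      map_natCast] at this
    rw [map_sub, smul_sub]
    convert this using 1
    abel

theorem Main_eq_zero_of_forall_mem {V : Type*} [AddCommGroup V] [Module T V] [Module.Finite T V]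
    {x : V} (h : ∀ n : ℕ, x ∈ (IsLocalRing.maximalIdeal T ^ (n + 1)) • (⊤ : Submodule T V)) :
    x = 0 := by
  have h2 : x ∈ (⨅ n : ℕ, (IsLocalRing.maximalIdeal T ^ n) • (⊤ : Submodule T V)) :=
    (Submodule.mem_iInf _).mpr fun n =>
      Submodule.smul_mono (Ideal.pow_le_pow_right (Nat.le_succ n)) le_rfl (h n)
  rwa [Ideal.iInf_pow_smul_eq_bot_of_isLocalRing _ (Ideal.IsPrime.ne_top inferInstance),
    Submodule.mem_bot] at h2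

/-- **EXPORT OF S33-ALG.** -/
theorem isOrdinaryAt_of_tower [Finite (IsLocalRing.ResidueField 𝒪)] (hdens : FrobeniusDensity)
    (hp : p.Prime) (hp𝒪 : (p : 𝒪) ∈ IsLocalRing.maximalIdeal 𝒪) (hpS : p ∈ S)
    (hNS : ∀ q : ℕ, q.Prime → q ∣ N → q ∈ S)
    (H : CuspForm.HeckeGaloisRepDatum N (↑S : Set ℕ) 𝒪 θ T)
    (hres : (GaloisRepAdic.ofResidualGaloisRep H.ρ.residual).IsOrdinaryAt p)
    (𝒯 : OrdTower N (↑S : Set ℕ) p)
    (hloc : ∀ P : ValuationSubring (AlgebraicClosure ℚ), P.LiesOverPrime p →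
      Nonempty (OrdLocal 𝒯 P))
    (hram : ∀ P : ValuationSubring (AlgebraicClosure ℚ), P.LiesOverPrime p →
      ∃ σ₀ ∈ P.inertiaSubgroupIn ℚ, ∃ ζ : AlgebraicClosure ℚ, ζ ^ p = 1 ∧ σ₀ ζ ≠ ζ) :
    H.ρ.IsOrdinaryAt p := by
  intro P hP
  obtain ⟨L⟩ := hloc P hP
  obtain ⟨σ₀, hσ₀, hne⟩ := hram P hP
  -- an exponent of `σ₀`
  haveI : NeZero (p : ℚ) := ⟨by exact_mod_cast hp.ne_zero⟩
  obtain ⟨ζ, hζ⟩ := HasEnoughRootsOfUnity.exists_primitiveRoot (AlgebraicClosure ℚ) p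
  obtain ⟨-, e, -, -, -, hζe⟩ :=
    exists_trace_det_data hdens hp hpS hNS H 1 1 (𝒯.M 1) ζ (by simpa using hζ.pow_eq_one) σ₀
  have hσe : CycExp p σ₀ e := cycExp_of_primitive hp hζ hζe
  have hK4 := Main_K4 hdens hp hp𝒪 hpS hNS H hres 𝒯 P hP L σ₀ hσ₀ e hσe (Main_coprime hp hσe hne)
  have hfix := Main_hfix hdens hp hpS hNS H 𝒯 P L σ₀ hσ₀ hne hK4
  have hlev := Main_level hdens hp hp𝒪 hpS hNS H 𝒯 P L σ₀ hσ₀ hK4 hfix
  obtain ⟨a, ha⟩ : ∃ a : T, a = LinearMap.det (H.ρ.ρ σ₀) := ⟨_, rfl⟩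
  have hunit : IsUnit (a - 1) := by
    obtain ⟨d, hd, hdet, -, -⟩ := hlev 0
    have h1 : IsUnit (((d : ℤ) - 1 : ℤ) : T) :=
      isUnit_intCast_of_isCoprime hp𝒪 (Main_coprime hp hd hne)
    by_contra hnu
    have h2 : a - 1 ∈ IsLocalRing.maximalIdeal T := hnu
    rw [zero_add, pow_one, ← ha] at hdet
    have h3 : (((d : ℤ) - 1 : ℤ) : T) ∈ IsLocalRing.maximalIdeal T := by
      have : (((d : ℤ) - 1 : ℤ) : T) = (a - 1) - (a - (d : T)) := by push_cast; ring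
      rw [this]
      exact Ideal.sub_mem _ h2 hdet
    exact h3 h1
  refine exists_ordinary_line H.ρ P σ₀ hσ₀ a hunit ha.symm (fun v => ?_) (fun τ hτ v => ?_)
  · refine Main_eq_zero_of_forall_mem (T := T) fun n => ?_
    obtain ⟨d, -, hdet, h1, -⟩ := hlev n
    rw [← ha] at hdet
    have h2 : H.ρ.ρ σ₀ (H.ρ.ρ σ₀ v) - (1 + a) • H.ρ.ρ σ₀ v + a • v =
        (H.ρ.ρ σ₀ (H.ρ.ρ σ₀ v) - (1 + (d : T)) • H.ρ.ρ σ₀ v + (d : T) • v)
          + (a - (d : T)) • (v - H.ρ.ρ σ₀ v) := by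
      simp only [add_smul, sub_smul, smul_sub, one_smul]
      abel
    rw [h2]
    exact Submodule.add_mem _ (h1 v) (Submodule.smul_mem_smul hdet Submodule.mem_top)
  · refine Main_eq_zero_of_forall_mem (T := T) fun n => ?_
    obtain ⟨d, -, hdet, -, h1⟩ := hlev n
    rw [← ha] at hdet
    have h2 : H.ρ.ρ σ₀ (H.ρ.ρ τ v - v) - a • (H.ρ.ρ τ v - v) =
        (H.ρ.ρ σ₀ (H.ρ.ρ τ v - v) - (d : T) • (H.ρ.ρ τ v - v))
          - (a - (d : T)) • (H.ρ.ρ τ v - v) := by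
      simp only [sub_smul]
      abel
    rw [h2]
    exact Submodule.sub_mem _ (h1 τ hτ v) (Submodule.smul_mem_smul hdet Submodule.mem_top)

end Fermat.Agent.S33
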