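import Fermat.Agent.S31.Apply

/-!
# S33-ALG : definitions and the interface with the geometry

`prim 𝔪 W = W[𝔪^∞]`, the ideal `mIdeal H` of the anemic Hecke algebra, the tower
`W_k = Λ / p ^ k` (`OrdTower`) and the local data at a place `P` over `p` (`OrdLocal`), i.e. the
statements (K1)-(K3), (P), (G), (S), (N) of the blueprint (reports #1148, #1149).
-/

set_option autoImplicit false

namespace Fermat.Agent.S33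

open CuspForm Fermat.Agent.S31

/-- the `𝔪`-primary part `W[𝔪^∞]`. -/
def prim {A : Type*} [CommRing A] (𝔪 : Ideal A) (W : Type*) [AddCommGroup W] [Module A W] :
    Submodule A W where
  carrier := {x | ∃ r : ℕ, ∀ a ∈ 𝔪 ^ r, a • x = 0}
  zero_mem' := ⟨0, fun a _ => smul_zero a⟩
  add_mem' := by
    rintro x y ⟨r, hr⟩ ⟨s, hs⟩
    refine ⟨r + s, fun a ha => ?_⟩
    rw [smul_add, hr a (Ideal.pow_le_pow_right (Nat.le_add_right r s) ha),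
      hs a (Ideal.pow_le_pow_right (Nat.le_add_left s r) ha), add_zero]
  smul_mem' := by
    rintro c x ⟨r, hr⟩
    exact ⟨r, fun a ha => by rw [smul_comm, hr a ha, smul_zero]⟩

theorem mem_prim {A : Type*} [CommRing A] {𝔪 : Ideal A} {W : Type*} [AddCommGroup W] [Module A W]
    {x : W} : x ∈ prim 𝔪 W ↔ ∃ r : ℕ, ∀ a ∈ 𝔪 ^ r, a • x = 0 := Iff.rfl

theorem map_mem_prim {A : Type*} [CommRing A] {𝔪 : Ideal A} {W W' : Type*} [AddCommGroup W]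
    [Module A W] [AddCommGroup W'] [Module A W'] (f : W →ₗ[A] W') {x : W} (hx : x ∈ prim 𝔪 W) :
    f x ∈ prim 𝔪 W' := by
  obtain ⟨r, hr⟩ := hx
  exact ⟨r, fun a ha => by rw [← map_smul, hr a ha, map_zero]⟩

/-- `τ` acts on `μ_p` by `ζ ↦ ζ ^ d`. -/
def CycExp (p : ℕ) (τ : GQ) (d : ℕ) : Prop :=
  ∀ ζ : AlgebraicClosure ℚ, ζ ^ p = 1 → τ ζ = ζ ^ d

/-- the kernel of `𝔸 → T → k_T`. -/
noncomputable def mIdeal {N : ℕ} [NeZero N] {S : Set ℕ}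
    {𝒪 : Type} [CommRing 𝒪] [IsDomain 𝒪] [IsDiscreteValuationRing 𝒪]
    [IsAdicComplete (IsLocalRing.maximalIdeal 𝒪) 𝒪]
    {θ : heckeAlgebra N 2 S →+* IsLocalRing.ResidueField 𝒪}
    {T : Type} [CommRing T] [IsLocalRing T] [IsNoetherianRing T]
    [IsAdicComplete (IsLocalRing.maximalIdeal T) T] [Algebra 𝒪 T] [IsLocalHom (algebraMap 𝒪 T)]
    [Module.Finite 𝒪 T] [Module.Free 𝒪 T]
    (H : HeckeGaloisRepDatum N S 𝒪 θ T) : Ideal (heckeAlgebra N 2 S) :=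
  RingHom.ker ((IsLocalRing.residue T).comp H.π)

/-- The tower `W_k = Λ / p ^ k Λ` of Hecke-Galois modules, with the reduction maps to `W_1`. -/
structure OrdTower (N : ℕ) [NeZero N] (S : Set ℕ) (p : ℕ) : Type 1 where
  M : (k : ℕ) → HeckeGaloisModule N S p k
  finite : ∀ k, Finite (M k).W
  c₀ : ℕ
  faithful : ∀ (k : ℕ) (a : heckeAlgebra N 2 S), (∀ w : (M k).W, a • w = 0) →
    ∃ (c : ℕ) (a' : heckeAlgebra N 2 S), ¬ p ∣ c ∧ c • a = (p ^ (k - c₀) : ℕ) • a'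
  red : (k : ℕ) → (M k).W →ₗ[heckeAlgebra N 2 S] (M 1).W
  red_ker : ∀ k : ℕ, 1 ≤ k → ∀ x : (M k).W, red k x = 0 → ∃ y : (M k).W, x = p • y
  red_gal : ∀ (k : ℕ) (σ : GQ) (x : (M k).W), red k ((M k).r σ x) = (M 1).r σ (red k x)
  tors : ∀ k j : ℕ, j ≤ k → ∀ x : (M k).W, (p ^ j) • x = 0 → ∃ y : (M k).W, x = (p ^ (k - j)) • y

/-- The local data at a place `P` over `p` : (K1)-(K3), (P), (G), (S), (N). -/
structure OrdLocal {N : ℕ} [NeZero N] {S : Set ℕ} {p : ℕ} (𝒯 : OrdTower N S p)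
    (P : ValuationSubring (AlgebraicClosure ℚ)) : Type where
  /-- `K_k ⊆ W_k` : the classes which are trivial at both Gauss valuations -/
  K : (k : ℕ) → AddSubgroup (𝒯.M k).W
  K1 : ∀ k : ℕ, ∀ σ ∈ P.inertiaSubgroupIn ℚ, ∀ x : (𝒯.M k).W, (𝒯.M k).r σ x - x ∈ K k
  K2 : ∀ a : heckeAlgebra N 2 S, ∀ x ∈ K 1, a • x ∈ K 1
  K3 : ∀ k j : ℕ, j < k → ∀ x : (𝒯.M k).W, (p ^ j) • x ∈ K k → 𝒯.red k x ∈ K 1
  /-- the Atkin-Lehner involution on `X = W_1` -/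
  w : (𝒯.M 1).W →ₗ[heckeAlgebra N 2 S] (𝒯.M 1).W
  /-- `Pop = U_p + w` on `X = W_1` -/
  Pop : (𝒯.M 1).W →ₗ[heckeAlgebra N 2 S] (𝒯.M 1).W
  w_gal : ∀ (σ : GQ) (x : (𝒯.M 1).W), w ((𝒯.M 1).r σ x) = (𝒯.M 1).r σ (w x)
  Pop_gal : ∀ (σ : GQ) (x : (𝒯.M 1).W), Pop ((𝒯.M 1).r σ x) = (𝒯.M 1).r σ (Pop x)
  /-- classes of level `N / p` -/
  X0 : AddSubgroup (𝒯.M 1).W
  /-- classes of level `N / p` which are trivial at the Gauss valuation of level `N / p` -/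
  K0 : AddSubgroup (𝒯.M 1).W
  P1 : ∀ x, Pop x ∈ X0
  P2 : ∀ x ∈ K 1, Pop x ∈ K0
  P3 : K0 ≤ K 1
  P4 : ∀ x ∈ K 1, w x ∈ K 1
  hG : ∀ Z : Submodule (heckeAlgebra N 2 S) (𝒯.M 1).W,
    (∀ (σ : GQ), ∀ z ∈ Z, (𝒯.M 1).r σ z ∈ Z) → (∀ z ∈ Z, z ∈ K0) → (∀ z ∈ Z, Pop z ∈ Z) →
    (∀ z ∈ Z, ∃ z' ∈ Z, Pop z' = z) →
    ∀ τ ∈ P.inertiaSubgroupIn ℚ, ∀ d : ℕ, CycExp p τ d → ∀ z ∈ Z, (𝒯.M 1).r τ z = d • z
  hS : ∀ z ∈ X0, Pop z = 0 →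
    (∀ τ ∈ P.inertiaSubgroupIn ℚ, CycExp p τ 1 → (𝒯.M 1).r τ z = z) → z = 0
  hN : ∀ z ∈ K 1, w z ∈ K 1 → Pop z = 0 → Pop (w z) = 0 →
    ∀ τ ∈ P.inertiaSubgroupIn ℚ, ∀ d : ℕ, CycExp p τ d → (𝒯.M 1).r τ z = d • z

end Fermat.Agent.S33
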