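import Fermat.Agent.S33.Alg.Defs

/-!
# S33-ALG : (A3), (A4), (A5) of the blueprint, abstractly

`W = W_k`, `X = W_1`, `red : W → X`.  All proofs are "induction on `j`: the element lies in
`p ^ j W` for all `j ≤ k`".
-/

set_option autoImplicit false

namespace Fermat.Agent.S33

variable {A : Type*} [CommRing A] {G : Type*} [Group G]
  {W X : Type*} [AddCommGroup W] [Module A W] [AddCommGroup X] [Module A X]

/-- the hypotheses on one level `k` of the tower. -/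
structure LevelData (p k : ℕ) (𝔪 : Ideal A) (r : G →* Module.End A W) (r₁ : G →* Module.End A X)
    (red : W →ₗ[A] X) (K : AddSubgroup W) (K₁ : AddSubgroup X) : Prop where
  killed : ∀ w : W, (p ^ k) • w = 0
  killed₁ : ∀ x : X, p • x = 0
  tors : ∀ j : ℕ, j ≤ k → ∀ x : W, (p ^ j) • x = 0 → ∃ y : W, x = (p ^ (k - j)) • y
  red_ker : ∀ x : W, red x = 0 → ∃ y : W, x = p • y
  red_gal : ∀ (g : G) (x : W), red (r g x) = r₁ g (red x)
  K3 : ∀ j : ℕ, j < k → ∀ x : W, (p ^ j) • x ∈ K → red x ∈ K₁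
  K4 : ∀ y ∈ prim 𝔪 X, (∀ g : G, r₁ g y ∈ K₁) → y = 0

variable {p k : ℕ} {𝔪 : Ideal A} {r : G →* Module.End A W} {r₁ : G →* Module.End A X}
  {red : W →ₗ[A] X} {K : AddSubgroup W} {K₁ : AddSubgroup X}

/-- auxiliary: `p ^ j • y ∈ prim`, `j < k` ⟹ `red y ∈ prim`.
[`a ∈ 𝔪 ^ r`: `p ^ j • (a • y) = 0`, so `a • y = p ^ (k - j) • z = p • (..)`, so `a • red y = 0`.] -/
theorem LevelData.red_mem_prim (D : LevelData p k 𝔪 r r₁ red K K₁) {j : ℕ} (hj : j < k) {y : W}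
    (hy : (p ^ j) • y ∈ prim 𝔪 W) : red y ∈ prim 𝔪 X := by
  obtain ⟨n, hn⟩ := hy
  refine ⟨n, fun a ha => ?_⟩
  have h0 : (p ^ j) • (a • y) = 0 := by
    rw [smul_comm]; exact hn a ha
  obtain ⟨z, hz⟩ := D.tors j hj.le _ h0
  obtain ⟨m, hm⟩ : ∃ m, k - j = m + 1 := ⟨k - j - 1, by omega⟩
  rw [← map_smul, hz, hm, pow_succ', mul_smul, map_nsmul, D.killed₁]

/-- SATURATION LEMMA.  A `G`-stable submodule of `W[𝔪^∞]` contained in `K` is zero.
[Show `B ≤ p ^ j W` by induction on `j ≤ k`: `b = p ^ j • y`; `red y` is `𝔪`-primary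
(`red_mem_prim`), `r₁ g (red y) = red (r g y) ∈ K₁` by (K3) since `p ^ j • r g y = r g b ∈ B ⊆ K`;
so `red y = 0` by (K4), `y = p • y'`.] -/
theorem LevelData.eq_bot (D : LevelData p k 𝔪 r r₁ red K K₁) (B : Submodule A W)
    (hG : ∀ (g : G), ∀ b ∈ B, r g b ∈ B) (hprim : B ≤ prim 𝔪 W) (hK : ∀ b ∈ B, b ∈ K) :
    B = ⊥ := by
  have key : ∀ j : ℕ, j ≤ k → ∀ b ∈ B, ∃ y : W, b = (p ^ j) • y := by
    intro j
    induction j with
    | zero => exact fun _ b _ => ⟨b, by simp⟩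
    | succ j ih =>
      intro hj b hb
      obtain ⟨y, hy⟩ := ih (by omega) b hb
      have hjk : j < k := by omega
      have h1 : red y ∈ prim 𝔪 X := D.red_mem_prim hjk (hy ▸ hprim hb)
      have h2 : ∀ g : G, r₁ g (red y) ∈ K₁ := by
        intro g
        rw [← D.red_gal]
        refine D.K3 j hjk _ ?_
        rw [← map_nsmul, ← hy]
        exact hK _ (hG g b hb)
      obtain ⟨y', hy'⟩ := D.red_ker y (D.K4 _ h1 h2)
      exact ⟨y', by rw [hy, hy', pow_succ, mul_smul]⟩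
  rw [eq_bot_iff]
  intro b hb
  obtain ⟨y, hy⟩ := key k le_rfl b hb
  rw [Submodule.mem_bot, hy, D.killed]

/-- (A3).  [`B := (t - 1 - d) • W[𝔪^∞]`; `(t - 1 - d) • w = (σ - 1)(σ - d)(σ⁻¹ w) ∈ K`.] -/
theorem LevelData.smul_eq_zero (D : LevelData p k 𝔪 r r₁ red K K₁) (σ : G) (t : A) (d : ℕ)
    (hCH : ∀ w : W, r σ (r σ w) - t • r σ w + (d : A) • w = 0)
    (hK1 : ∀ w : W, r σ w - w ∈ K) :
    ∀ w ∈ prim 𝔪 W, (t - 1 - (d : A)) • w = 0 := by
  intro w hw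
  have hB := D.eq_bot ((prim 𝔪 W).map (LinearMap.lsmul A W (t - 1 - (d : A))))
    (by
      rintro g _ ⟨v, hv, rfl⟩
      exact ⟨r g v, map_mem_prim (r g) hv, by simp⟩)
    (by
      rintro _ ⟨v, hv, rfl⟩
      exact (prim 𝔪 W).smul_mem _ hv)
    (by
      rintro _ ⟨v, _, rfl⟩
      have h1 := hCH (r σ⁻¹ v)
      have h2 : r σ (r σ⁻¹ v) = v := by
        rw [← Module.End.mul_apply, ← map_mul, mul_inv_cancel, map_one, Module.End.one_apply]
      rw [h2] at h1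
      have h3 : LinearMap.lsmul A W (t - 1 - (d : A)) v =
          r σ (v - (d : A) • r σ⁻¹ v) - (v - (d : A) • r σ⁻¹ v) := by
        rw [LinearMap.lsmul_apply, map_sub (r σ), map_smul, h2, sub_smul, sub_smul, one_smul]
        have h4 : t • v = r σ v + (d : A) • r σ⁻¹ v := by
          rw [← sub_eq_zero, ← neg_eq_zero, ← h1]; abel
        rw [h4]; abel
      rw [h3]
      exact hK1 _)
  have : LinearMap.lsmul A W (t - 1 - (d : A)) w ∈
      (prim 𝔪 W).map (LinearMap.lsmul A W (t - 1 - (d : A))) := ⟨w, hw, rfl⟩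
  rw [hB, Submodule.mem_bot] at this
  exact this

/-- (I1) on `W[𝔪^∞]`. -/
theorem LevelData.I1 (D : LevelData p k 𝔪 r r₁ red K K₁) (σ : G) (t : A) (d : ℕ)
    (hCH : ∀ w : W, r σ (r σ w) - t • r σ w + (d : A) • w = 0)
    (hK1 : ∀ w : W, r σ w - w ∈ K) :
    ∀ w ∈ prim 𝔪 W, r σ (r σ w) - ((1 : A) + (d : A)) • r σ w + (d : A) • w = 0 := by
  intro w hw
  have h1 := D.smul_eq_zero σ t d hCH hK1 (r σ w) (map_mem_prim (r σ) hw)
  have h2 : r σ (r σ w) - ((1 : A) + (d : A)) • r σ w + (d : A) • w =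
      (r σ (r σ w) - t • r σ w + (d : A) • w) + (t - 1 - (d : A)) • r σ w := by
    rw [sub_smul, sub_smul, add_smul]; abel
  rw [h2, hCH, h1, add_zero]

/-- (A4).  [Show `y ∈ p ^ j W` by induction on `j ≤ k`: `y = p ^ j • y'`; `red y'` is `𝔪`-primary,
lies in `K₁` (K3), is fixed by `σ` (`p ^ j • (σ y' - y') = 0`); so `hfix` and (K4) give
`red y' = 0`.] -/
theorem LevelData.eq_zero_of_fixed (D : LevelData p k 𝔪 r r₁ red K K₁) (σ : G)
    (hfix : ∀ y ∈ prim 𝔪 X, y ∈ K₁ → r₁ σ y = y → ∀ g : G, r₁ g y ∈ K₁) :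
    ∀ y ∈ prim 𝔪 W, y ∈ K → r σ y = y → y = 0 := by
  intro y hy hyK hσ
  have key : ∀ j : ℕ, j ≤ k → ∃ y' : W, y = (p ^ j) • y' := by
    intro j
    induction j with
    | zero => exact fun _ => ⟨y, by simp⟩
    | succ j ih =>
      intro hj
      obtain ⟨y', hy'⟩ := ih (by omega)
      have hjk : j < k := by omega
      have h1 : red y' ∈ prim 𝔪 X := D.red_mem_prim hjk (hy' ▸ hy)
      have h2 : red y' ∈ K₁ := D.K3 j hjk _ (hy' ▸ hyK)
      have h3 : r₁ σ (red y') = red y' := by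
        have h0 : (p ^ j) • (r σ y' - y') = 0 := by
          rw [smul_sub, ← map_nsmul, ← hy', hσ, sub_self]
        obtain ⟨z, hz⟩ := D.tors j hjk.le _ h0
        obtain ⟨m, hm⟩ : ∃ m, k - j = m + 1 := ⟨k - j - 1, by omega⟩
        rw [← D.red_gal, ← sub_eq_zero, ← map_sub, hz, hm, pow_succ', mul_smul, map_nsmul,
          D.killed₁]
      obtain ⟨y'', hy''⟩ := D.red_ker y' (D.K4 _ h1 (hfix _ h1 h2 h3))
      exact ⟨y'', by rw [hy', hy'', pow_succ, mul_smul]⟩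
  obtain ⟨y', hy'⟩ := key k le_rfl
  rw [hy', D.killed]

/-- (A5) = (I2) on `W[𝔪^∞]`.  [`u := τ w - w ∈ K ∩ prim`, `u' := σ u - d u = (σ u - u) + (1 - d) u`
lies in `K ∩ prim` and is fixed by `σ` by (I1).] -/
theorem LevelData.I2 (D : LevelData p k 𝔪 r r₁ red K K₁) (σ τ : G) (t : A) (d : ℕ)
    (hCH : ∀ w : W, r σ (r σ w) - t • r σ w + (d : A) • w = 0)
    (hK1 : ∀ w : W, r σ w - w ∈ K) (hK1' : ∀ w : W, r τ w - w ∈ K)
    (hfix : ∀ y ∈ prim 𝔪 X, y ∈ K₁ → r₁ σ y = y → ∀ g : G, r₁ g y ∈ K₁) :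
    ∀ w ∈ prim 𝔪 W, r σ (r τ w - w) - (d : A) • (r τ w - w) = 0 := by
  intro w hw
  have hu : r τ w - w ∈ prim 𝔪 W := (prim 𝔪 W).sub_mem (map_mem_prim (r τ) hw) hw
  set u := r τ w - w with hudef
  have huK : u ∈ K := hK1' w
  refine D.eq_zero_of_fixed σ hfix _
    ((prim 𝔪 W).sub_mem (map_mem_prim (r σ) hu) ((prim 𝔪 W).smul_mem _ hu)) ?_ ?_
  · have : r σ u - (d : A) • u = (r σ u - u) + (u - d • u) := by
      rw [Nat.cast_smul_eq_nsmul]; abel
    rw [this]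
    exact K.add_mem (hK1 u) (K.sub_mem huK (K.nsmul_mem huK d))
  · have h1 := D.I1 σ t d hCH hK1 u hu
    rw [map_sub, map_smul, ← sub_eq_zero, ← h1, add_smul, one_smul]
    abel

end Fermat.Agent.S33
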