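import Mathlib

/-!
# S33-ALG : linear algebra over a local ring (part of (A0))
-/

set_option autoImplicit false

namespace Fermat.Agent.S33

/-- the trace is `1 + a`. -/
theorem LinAlg_trace {T : Type*} [CommRing T] [IsLocalRing T] (M : Matrix (Fin 2) (Fin 2) T)
    (a : T) (ha0 : a ≠ 0) (hMM : M * M - (1 + a) • M + a • (1 : Matrix (Fin 2) (Fin 2) T) = 0)
    (hdet : M 0 0 * M 1 1 - M 0 1 * M 1 0 = a) : M 0 0 + M 1 1 = 1 + a := by
  have E00 := congrFun (congrFun hMM 0) 0
  have E01 := congrFun (congrFun hMM 0) 1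
  have E10 := congrFun (congrFun hMM 1) 0
  have E11 := congrFun (congrFun hMM 1) 1
  simp only [Matrix.add_apply, Matrix.sub_apply, Matrix.smul_apply, Matrix.mul_apply,
    Fin.sum_univ_two, smul_eq_mul, Matrix.one_apply_eq, mul_one, Matrix.zero_apply,
    Matrix.one_apply_ne (show (0 : Fin 2) ≠ 1 by decide),
    Matrix.one_apply_ne (show (1 : Fin 2) ≠ 0 by decide), mul_zero, add_zero] at E00 E01 E10 E11
  generalize M 0 0 = p at *
  generalize M 0 1 = q at *
  generalize M 1 0 = r at *
  generalize M 1 1 = t at *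
  have h00 : (p + t - 1 - a) * p = 0 := by linear_combination E00 + hdet
  have h01 : (p + t - 1 - a) * q = 0 := by linear_combination E01
  have h10 : (p + t - 1 - a) * r = 0 := by linear_combination E10
  have h11 : (p + t - 1 - a) * t = 0 := by linear_combination E11 + hdet
  have hu : IsUnit (-(p + t - 1 - a) + (1 + (p + t - 1 - a))) := by
    have e : -(p + t - 1 - a) + (1 + (p + t - 1 - a)) = 1 := by ring
    rw [e]
    exact isUnit_one
  rcases IsLocalRing.isUnit_or_isUnit_of_isUnit_add hu with h | h
  · exfalso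
    have h' : IsUnit (p + t - 1 - a) := by
      rwa [IsUnit.neg_iff] at h
    have hp : p = 0 := (h'.mul_right_eq_zero).mp h00
    have hq : q = 0 := (h'.mul_right_eq_zero).mp h01
    apply ha0
    rw [← hdet, hp, hq]
    ring
  · have h2 : (1 + (p + t - 1 - a)) * (p + t - 1 - a) = 0 := by
      linear_combination h00 + h11 - (t * h00 - r * h01) + (p + t - 1 - a) * hdet
    have h3 := (h.mul_right_eq_zero).mp h2
    linear_combination h3

/-- the case where `M 0 0 - 1` is a unit. -/
theorem LinAlg_aux {T V : Type*} [CommRing T] [AddCommGroup V] [Module T V]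
    (c : Module.Basis (Fin 2) T V) (s : Module.End T V)
    (a : T) (ha : IsUnit (a - 1)) (hs : ∀ v : V, s (s v) - (1 + a) • s v + a • v = 0)
    (htr : LinearMap.toMatrix c c s 0 0 + LinearMap.toMatrix c c s 1 1 = 1 + a)
    (hdet : LinearMap.toMatrix c c s 0 0 * LinearMap.toMatrix c c s 1 1 -
      LinearMap.toMatrix c c s 0 1 * LinearMap.toMatrix c c s 1 0 = a)
    (hu : IsUnit (LinearMap.toMatrix c c s 0 0 - 1)) :
    ∃ b : Module.Basis (Fin 2) T V, LinearMap.ker (s - a • (1 : Module.End T V)) = T ∙ b 0 := by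
  classical
  let v : Fin 2 → V := ![s (c 0) - c 0, s (c 1) - a • c 1]
  have hv : c.det v = -((a - 1) * (LinearMap.toMatrix c c s 0 0 - 1)) := by
    rw [Module.Basis.det_apply, Matrix.det_fin_two]
    have e00 : c.toMatrix v 0 0 = LinearMap.toMatrix c c s 0 0 - 1 := by
      simp [Module.Basis.toMatrix_apply, v, LinearMap.toMatrix_apply]
    have e01 : c.toMatrix v 0 1 = LinearMap.toMatrix c c s 0 1 := by
      simp [Module.Basis.toMatrix_apply, v, LinearMap.toMatrix_apply]
    have e10 : c.toMatrix v 1 0 = LinearMap.toMatrix c c s 1 0 := by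
      simp [Module.Basis.toMatrix_apply, v, LinearMap.toMatrix_apply]
    have e11 : c.toMatrix v 1 1 = LinearMap.toMatrix c c s 1 1 - a := by
      simp [Module.Basis.toMatrix_apply, v, LinearMap.toMatrix_apply]
    rw [e00, e01, e10, e11]
    linear_combination hdet - htr
  have hvu : IsUnit (c.det v) := by
    rw [hv, IsUnit.neg_iff]
    exact ha.mul hu
  obtain ⟨hli, hsp⟩ := c.is_basis_iff_det.mpr hvu
  let b := Module.Basis.mk hli hsp.ge
  have hb0 : b 0 = s (c 0) - c 0 := by
    simp [b, v]
  have hb1 : b 1 = s (c 1) - a • c 1 := by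
    simp [b, v]
  refine ⟨b, le_antisymm ?_ ?_⟩
  · intro x hx
    have hx' : s x = a • x := by
      have : s x - a • x = 0 := hx
      exact sub_eq_zero.mp this
    have h0 : s (b 0) - b 0 = (a - 1) • b 0 := by
      rw [hb0, map_sub]
      have := hs (c 0)
      have e : s (s (c 0)) = (1 + a) • s (c 0) - a • c 0 := by
        rw [← sub_eq_zero, ← this]
        abel
      rw [e]
      module
    have h1 : s (b 1) - b 1 = 0 := by
      rw [hb1, map_sub, map_smul, ← hs (c 1)]
      module
    have hsum : x = b.repr x 0 • b 0 + b.repr x 1 • b 1 := by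
      conv_lhs => rw [← b.sum_repr x, Fin.sum_univ_two]
    have h2 : (a - 1) • x = (a - 1) • (b.repr x 0 • b 0) := by
      have e1 : (a - 1) • x = s x - x := by
        rw [hx']
        module
      have e2 : s x - x = b.repr x 0 • (s (b 0) - b 0) + b.repr x 1 • (s (b 1) - b 1) := by
        conv_lhs => rw [hsum]
        rw [map_add, map_smul, map_smul]
        module
      rw [e1, e2, h0, h1]
      module
    have h3 : x = b.repr x 0 • b 0 := ha.smul_left_cancel.mp h2
    rw [h3]
    exact Submodule.smul_mem _ _ (Submodule.mem_span_singleton_self _)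
  · rw [Submodule.span_singleton_le_iff_mem, LinearMap.mem_ker, hb0]
    show s (s (c 0) - c 0) - a • (s (c 0) - c 0) = 0
    rw [map_sub, ← hs (c 0)]
    module

/-- `V` free of rank two over a local ring, `(s - 1)(s - a) = 0`, `a - 1` a unit, `det s = a`.
Then `ker (s - a)` is generated by the first vector of a basis.
[`e := (a - 1)⁻¹ (s - 1)` is idempotent.  `tr s = 1 + a` (Cayley-Hamilton: `(tr s - 1 - a) s = 0`,
`s` invertible), so in a basis `c` the matrix of `e` is `[[x, y], [z, 1 - x]]` with
`x (1 - x) = y z`.  `x` or `1 - x` is a unit.  `x` unit: `b0 := e c0`, `b1 := (1 - e) c1`, the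
transition determinant is `x`.  `1 - x` unit: `b0 := e c1`, `b1 := (1 - e) c0`, determinant
`-(1 - x)`.  `e b0 = b0`, `e b1 = 0`, so `ker (s - a) = range e = T b0`.
ALTERNATIVE: Nakayama (`e ≠ 0, 1` modulo the maximal ideal because `det s = a ≠ 1, a²`).] -/
theorem exists_basis_ker {T V : Type*} [CommRing T] [IsLocalRing T] [AddCommGroup V] [Module T V]
    [Module.Free T V] [Module.Finite T V] (hV : Module.finrank T V = 2) (s : Module.End T V)
    (a : T) (ha : IsUnit (a - 1)) (ha0 : a ≠ 0)
    (hs : ∀ v : V, s (s v) - (1 + a) • s v + a • v = 0)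
    (hdet : LinearMap.det s = a) :
    ∃ b : Module.Basis (Fin 2) T V, LinearMap.ker (s - a • (1 : Module.End T V)) = T ∙ b 0 := by
  classical
  let c := Module.finBasisOfFinrankEq T V hV
  have hdetM : LinearMap.toMatrix c c s 0 0 * LinearMap.toMatrix c c s 1 1 -
      LinearMap.toMatrix c c s 0 1 * LinearMap.toMatrix c c s 1 0 = a := by
    rw [← Matrix.det_fin_two, LinearMap.det_toMatrix, hdet]
  have hMM : LinearMap.toMatrix c c s * LinearMap.toMatrix c c s -
      (1 + a) • LinearMap.toMatrix c c s + a • (1 : Matrix (Fin 2) (Fin 2) T) = 0 := by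
    have h0 : s * s - (1 + a) • s + a • (1 : Module.End T V) = 0 := LinearMap.ext hs
    have h := congrArg (LinearMap.toMatrixAlgEquiv c) h0
    simp only [map_add, map_sub, map_mul, map_smul, map_one, map_zero] at h
    exact h
  have htr := LinAlg_trace _ a ha0 hMM hdetM
  have hu : IsUnit ((LinearMap.toMatrix c c s 0 0 - 1) + (LinearMap.toMatrix c c s 1 1 - 1)) := by
    have e : (LinearMap.toMatrix c c s 0 0 - 1) + (LinearMap.toMatrix c c s 1 1 - 1) = a - 1 := by
      linear_combination htr
    rw [e]
    exact ha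
  rcases IsLocalRing.isUnit_or_isUnit_of_isUnit_add hu with h | h
  · exact LinAlg_aux c s a ha hs htr hdetM h
  · let c' := c.reindex (Equiv.swap (0 : Fin 2) 1)
    have e : ∀ i j, LinearMap.toMatrix c' c' s i j =
        LinearMap.toMatrix c c s (Equiv.swap (0 : Fin 2) 1 i) (Equiv.swap (0 : Fin 2) 1 j) := by
      intro i j
      simp [c', LinearMap.toMatrix_apply]
    refine LinAlg_aux c' s a ha hs ?_ ?_ ?_
    · rw [e, e]
      simp only [Equiv.swap_apply_left, Equiv.swap_apply_right]
      linear_combination htr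
    · rw [e, e, e, e]
      simp only [Equiv.swap_apply_left, Equiv.swap_apply_right]
      linear_combination hdetM
    · rw [e]
      simp only [Equiv.swap_apply_left]
      exact h

end Fermat.Agent.S33
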