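import Fermat.Agent.S33.Alg.Defs

/-!
# S33-ALG : small lemmas on `prim`, on `mIdeal H` and on `CycExp`
-/

set_option autoImplicit false

namespace Fermat.Agent.S33

open CuspForm Fermat.Agent.S31

/-- a nonzero `𝔪`-primary submodule contains a nonzero element killed by `𝔪`.
[`y ≠ 0` in `Y`, `r` minimal with `𝔪 ^ r y = 0`; `r ≠ 0`; `b ∈ 𝔪 ^ (r - 1)` with `b y ≠ 0`.] -/
theorem exists_socle {A W : Type*} [CommRing A] [AddCommGroup W] [Module A W] (𝔪 : Ideal A)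
    (Y : Submodule A W) (hprim : Y ≤ prim 𝔪 W) (hY : Y ≠ ⊥) :
    ∃ y ∈ Y, y ≠ 0 ∧ ∀ a ∈ 𝔪, a • y = 0 := by
  have key : ∀ r : ℕ, ∀ y ∈ Y, y ≠ 0 → (∀ a ∈ 𝔪 ^ r, a • y = 0) →
      ∃ y ∈ Y, y ≠ 0 ∧ ∀ a ∈ 𝔪, a • y = 0 := by
    intro r
    induction r with
    | zero =>
      intro y _ hy0 hy
      exfalso
      apply hy0
      have := hy 1 (by rw [pow_zero, Ideal.one_eq_top]; exact Submodule.mem_top)
      rwa [one_smul] at this
    | succ r ih =>
      intro y hyY hy0 hy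
      by_cases h : ∀ a ∈ 𝔪, a • y = 0
      · exact ⟨y, hyY, hy0, h⟩
      · push Not at h
        obtain ⟨a, ha, hay⟩ := h
        refine ih (a • y) (Y.smul_mem a hyY) hay fun b hb => ?_
        rw [smul_smul]
        apply hy
        rw [pow_succ]
        exact Ideal.mul_mem_mul hb ha
  obtain ⟨y, hyY, hy0⟩ := Submodule.exists_mem_ne_zero_of_ne_bot hY
  obtain ⟨r, hr⟩ := hprim hyY
  exact key r y hyY hy0 hr

/-- [`W` finite: the chain `𝔪 ^ r • ⊤` is stationary: `W'' := 𝔪 ^ r • ⊤ = 𝔪 • W''`; Nakayama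
(`Submodule.exists_sub_one_mem_and_smul_eq_zero_of_fg_of_le_smul`) gives `c` with `c - 1 ∈ 𝔪`,
`c W'' = 0`; then `𝔪 ^ r (c w) = 0`.] -/
theorem exists_smul_mem_prim {A W : Type*} [CommRing A] [AddCommGroup W] [Module A W] [Finite W]
    (𝔪 : Ideal A) : ∃ c : A, c - 1 ∈ 𝔪 ∧ ∀ w : W, c • w ∈ prim 𝔪 W := by
  let f : ℕ →o (Submodule A W)ᵒᵈ :=
    { toFun := fun r => OrderDual.toDual (𝔪 ^ r • (⊤ : Submodule A W))
      monotone' := fun r s hrs => by
        show 𝔪 ^ s • (⊤ : Submodule A W) ≤ 𝔪 ^ r • (⊤ : Submodule A W)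
        exact Submodule.smul_mono_left (Ideal.pow_le_pow_right hrs) }
  obtain ⟨r, hr⟩ := IsArtinian.monotone_stabilizes f
  have hr1 : 𝔪 ^ r • (⊤ : Submodule A W) = 𝔪 ^ (r + 1) • (⊤ : Submodule A W) :=
    hr (r + 1) (Nat.le_succ r)
  have hle : 𝔪 ^ r • (⊤ : Submodule A W) ≤ 𝔪 • (𝔪 ^ r • (⊤ : Submodule A W)) := by
    rw [← Submodule.mul_smul, ← pow_succ', ← hr1]
  obtain ⟨c, hc, hc0⟩ := Submodule.exists_sub_one_mem_and_smul_eq_zero_of_fg_of_le_smul 𝔪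
    (𝔪 ^ r • (⊤ : Submodule A W)) (IsNoetherian.noetherian _) hle
  refine ⟨c, hc, fun w => ⟨r, fun a ha => ?_⟩⟩
  rw [smul_comm]
  exact hc0 _ (Submodule.smul_mem_smul ha Submodule.mem_top)

/-- every `p`-th root of unity is a power of a primitive one. -/
theorem cycExp_of_primitive {p : ℕ} (hp : p.Prime) {ζ : AlgebraicClosure ℚ}
    (hζ : IsPrimitiveRoot ζ p) {τ : GQ} {d : ℕ} (h : τ ζ = ζ ^ d) : CycExp p τ d := by
  intro ξ hξ
  have : NeZero p := ⟨hp.ne_zero⟩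
  obtain ⟨i, -, rfl⟩ := hζ.eq_pow_of_pow_eq_one hξ
  rw [map_pow, h, ← pow_mul, ← pow_mul, mul_comm]

/-- two exponents of the same `τ` are congruent modulo `p`. -/
theorem CycExp.modEq {p : ℕ} (hp : p.Prime) {τ : GQ} {d d' : ℕ} (h : CycExp p τ d)
    (h' : CycExp p τ d') : d ≡ d' [MOD p] := by
  have : NeZero p := ⟨hp.ne_zero⟩
  obtain ⟨ζ, hζ⟩ := HasEnoughRootsOfUnity.exists_primitiveRoot (AlgebraicClosure ℚ) p
  have h1 : ζ ^ d = ζ ^ d' := (h ζ hζ.pow_eq_one).symm.trans (h' ζ hζ.pow_eq_one)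
  obtain ⟨u, rfl⟩ := hζ.isUnit hp.ne_zero
  have h2 : u ^ d = u ^ d' := Units.ext (by simpa using h1)
  rw [pow_eq_pow_iff_modEq, ← orderOf_units, ← hζ.eq_orderOf] at h2
  exact h2

/-- if `ζ ^ (p ^ k) = 1` is primitive, `k ≥ 1` and `τ ζ = ζ ^ d` then `CycExp p τ d`. -/
theorem cycExp_of_primitive_pow {p k : ℕ} (hp : p.Prime) (hk : 1 ≤ k) {ζ : AlgebraicClosure ℚ}
    (hζ : IsPrimitiveRoot ζ (p ^ k)) {τ : GQ} {d : ℕ} (h : τ ζ = ζ ^ d) : CycExp p τ d := by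
  have h1 : IsPrimitiveRoot (ζ ^ (p ^ (k - 1))) p :=
    hζ.pow (pow_pos hp.pos k) (by rw [← pow_succ, Nat.sub_add_cancel hk])
  apply cycExp_of_primitive hp h1
  rw [map_pow, h, ← pow_mul, ← pow_mul, mul_comm]

variable {p : ℕ} {N : ℕ} [NeZero N] {S : Set ℕ}
  {𝒪 : Type} [CommRing 𝒪] [IsDomain 𝒪] [IsDiscreteValuationRing 𝒪]
  [IsAdicComplete (IsLocalRing.maximalIdeal 𝒪) 𝒪]
  {θ : heckeAlgebra N 2 S →+* IsLocalRing.ResidueField 𝒪}
  {T : Type} [CommRing T] [IsLocalRing T] [IsNoetherianRing T]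
  [IsAdicComplete (IsLocalRing.maximalIdeal T) T] [Algebra 𝒪 T] [IsLocalHom (algebraMap 𝒪 T)]
  [Module.Finite 𝒪 T] [Module.Free 𝒪 T]

theorem mem_mIdeal (H : HeckeGaloisRepDatum N S 𝒪 θ T) {a : heckeAlgebra N 2 S} :
    a ∈ mIdeal H ↔ H.π a ∈ IsLocalRing.maximalIdeal T := by
  unfold mIdeal
  rw [RingHom.mem_ker, RingHom.comp_apply, IsLocalRing.residue_eq_zero_iff]

theorem one_notMem_mIdeal (H : HeckeGaloisRepDatum N S 𝒪 θ T) : (1 : heckeAlgebra N 2 S) ∉ mIdeal H := by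
  rw [mem_mIdeal, map_one]
  exact (Ideal.ne_top_iff_one _).mp (IsLocalRing.maximalIdeal.isMaximal T).ne_top

/-- `c - 1 ∈ 𝔪` ⟹ `π c` is a unit. -/
theorem isUnit_π_of_sub_one_mem (H : HeckeGaloisRepDatum N S 𝒪 θ T) {c : heckeAlgebra N 2 S}
    (hc : c - 1 ∈ mIdeal H) : IsUnit (H.π c) := by
  rw [mem_mIdeal, map_sub, map_one] at hc
  rw [← IsLocalRing.notMem_maximalIdeal]
  intro h
  have h1 : (1 : T) ∈ IsLocalRing.maximalIdeal T := by
    have e : (1 : T) = H.π c - (H.π c - 1) := by ring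
    rw [e]
    exact Ideal.sub_mem _ h hc
  exact (Ideal.ne_top_iff_one _).mp (IsLocalRing.maximalIdeal.isMaximal T).ne_top h1

/-- `𝔪` is maximal, in the form: elements outside `𝔪` are invertible modulo `𝔪`.
[the residue field of `T` is finite (`H.residue_surjective`), so `x ^ (q - 1) = 1` there.] -/
theorem exists_mul_sub_one_mem [Finite (IsLocalRing.ResidueField 𝒪)]
    (H : HeckeGaloisRepDatum N S 𝒪 θ T) {a : heckeAlgebra N 2 S} (ha : a ∉ mIdeal H) :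
    ∃ a' : heckeAlgebra N 2 S, a * a' - 1 ∈ mIdeal H := by
  have hsurj : Function.Surjective (IsLocalRing.ResidueField.map (algebraMap 𝒪 T)) := by
    intro y
    obtain ⟨x, hx⟩ := H.residue_surjective y
    exact ⟨IsLocalRing.residue 𝒪 x, by rw [IsLocalRing.ResidueField.map_residue]; exact hx⟩
  have hfin : Finite (IsLocalRing.ResidueField T) := Finite.of_surjective _ hsurj
  have hx : IsLocalRing.residue T (H.π a) ≠ 0 := by
    rw [Ne, IsLocalRing.residue_eq_zero_iff, ← mem_mIdeal]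
    exact ha
  obtain ⟨n, hn, hn1⟩ := (isOfFinOrder_iff_pow_eq_one.mp (isOfFinOrder_of_finite (Units.mk0 _ hx)))
  have hn2 : IsLocalRing.residue T (H.π a) ^ n = 1 := by
    have := congrArg Units.val hn1
    simpa using this
  refine ⟨a ^ (n - 1), ?_⟩
  rw [← pow_succ', Nat.sub_add_cancel hn, mem_mIdeal, ← IsLocalRing.residue_eq_zero_iff, map_sub,
    map_sub, map_pow, map_pow, hn2, map_one, map_one, sub_self]

/-- `p ∈ 𝔪_T`. -/
theorem natCast_mem_maximalIdeal (hp𝒪 : (p : 𝒪) ∈ IsLocalRing.maximalIdeal 𝒪) :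
    (p : T) ∈ IsLocalRing.maximalIdeal T := by
  have := map_nonunit (algebraMap 𝒪 T) (p : 𝒪) hp𝒪
  rwa [map_natCast] at this

/-- an integer prime to `p` is a unit of `T`. -/
theorem isUnit_intCast_of_isCoprime (hp𝒪 : (p : 𝒪) ∈ IsLocalRing.maximalIdeal 𝒪) {z : ℤ}
    (hz : IsCoprime z (p : ℤ)) : IsUnit (z : T) := by
  obtain ⟨u, v, huv⟩ := hz
  have hpT : (p : T) ∈ IsLocalRing.maximalIdeal T := natCast_mem_maximalIdeal hp𝒪
  have h1 : (u : T) * (z : T) + (v : T) * (p : T) = 1 := by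
    have := congrArg (Int.cast : ℤ → T) huv
    push_cast at this
    exact this
  have h2 : IsUnit ((u : T) * (z : T)) := by
    rw [← IsLocalRing.notMem_maximalIdeal]
    intro h
    have h3 : (1 : T) ∈ IsLocalRing.maximalIdeal T := by
      rw [← h1]
      exact Ideal.add_mem _ h (Ideal.mul_mem_left _ _ hpT)
    exact (Ideal.ne_top_iff_one _).mp (IsLocalRing.maximalIdeal.isMaximal T).ne_top h3
  exact isUnit_of_mul_isUnit_right h2

end Fermat.Agent.S33
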