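import Fermat.Agent.S33.Alg.Defs
import Fermat.Agent.S31.Bridge

/-!
# S33-WIRE (W1) : the tower `W_k = Λ / p ^ k Λ` of a `TateData`
-/

set_option autoImplicit false

namespace Fermat.Agent.S33

open CuspForm Fermat.Agent.S31

variable {N : ℕ} [NeZero N] {p : ℕ}

/-- the inclusion of the anemic Hecke algebra in the full one. -/
noncomputable def inclA (N : ℕ) [NeZero N] (S : Set ℕ) :
    heckeAlgebra N 2 S →+* GR.H.HeckeFull N :=
  (Subalgebra.inclusion (heckeAlgebra_mono (Set.empty_subset S))).toRingHom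

/-- the carrier `Λ / p ^ k Λ`. -/
abbrev Wk (D : GR.H.TateData N p) (k : ℕ) : Type := D.Λ ⧸ Bridge_sub D.Λ (p ^ k)

/-- the Hecke action on `Λ / p ^ k Λ`. -/
noncomputable def Tower_ψ (S : Set ℕ) (D : GR.H.TateData N p) (k : ℕ) :
    heckeAlgebra N 2 S →+* Module.End ℤ (Wk D k) :=
  (Bridge_red (Λ := D.Λ) (p ^ k)).comp (D.hecke.comp (inclA N S))

/-- the Galois action on `Λ / p ^ k Λ`. -/
noncomputable def Tower_g (D : GR.H.TateData N p) (k : ℕ) (σ : GQ) : Module.End ℤ (Wk D k) :=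
  Bridge_red (Λ := D.Λ) (p ^ k) (D.gal k σ)

theorem Tower_g_one (D : GR.H.TateData N p) (k : ℕ) : Tower_g D k 1 = 1 := by
  unfold Tower_g
  rw [← map_one (Bridge_red (Λ := D.Λ) (p ^ k))]
  exact Bridge_red_eq _ (D.gal_one k)

theorem Tower_g_mul (D : GR.H.TateData N p) (k : ℕ) (σ τ : GQ) :
    Tower_g D k (σ * τ) = Tower_g D k σ * Tower_g D k τ := by
  unfold Tower_g
  rw [← map_mul (Bridge_red (Λ := D.Λ) (p ^ k))]
  exact Bridge_red_eq _ (D.gal_mul k σ τ)

theorem Tower_g_comm (S : Set ℕ) (D : GR.H.TateData N p) (k : ℕ) (σ : GQ)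
    (t : heckeAlgebra N 2 S) : Tower_g D k σ * Tower_ψ S D k t = Tower_ψ S D k t * Tower_g D k σ := by
  show Bridge_red (Λ := D.Λ) (p ^ k) (D.gal k σ) * Bridge_red (Λ := D.Λ) (p ^ k) (D.hecke (inclA N S t))
    = Bridge_red (Λ := D.Λ) (p ^ k) (D.hecke (inclA N S t)) * Bridge_red (Λ := D.Λ) (p ^ k) (D.gal k σ)
  rw [← map_mul, ← map_mul]
  exact Bridge_red_eq _ (D.gal_hecke k σ (inclA N S t))

/-- the Hecke-Galois module `Λ / p ^ k Λ` (same construction as `S31.exists_heckeGaloisModule`, but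
as a definition, so that the carrier is visible). -/
noncomputable def hgm (S : Set ℕ) (hpS : p ∈ S) (D : GR.H.TateData N p) (k : ℕ) :
    HeckeGaloisModule N S p k :=
  letI inst : Module (heckeAlgebra N 2 S) (Wk D k) := Module.compHom _ (Tower_ψ S D k)
  { W := Wk D k
    instAddCommGroup := inferInstance
    instModule := inst
    r := Bridge_rep (Tower_ψ S D k) (Tower_g D k) (Tower_g_one D k) (Tower_g_mul D k)
      (Tower_g_comm S D k)
    level := by
      obtain ⟨L, hL, hL'⟩ := D.gal_level k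
      refine ⟨L, hL, fun σ hσ => LinearMap.ext fun w => ?_⟩
      have : Tower_g D k σ = 1 := by
        unfold Tower_g
        rw [← map_one (Bridge_red (Λ := D.Λ) (p ^ k))]
        exact Bridge_red_eq _ (hL' σ hσ)
      exact LinearMap.congr_fun this w
    killed := by
      intro w
      induction w using Submodule.Quotient.induction_on with
      | _ x =>
        rw [← Submodule.Quotient.mk_smul, Submodule.Quotient.mk_eq_zero]
        exact (Bridge_mem_sub _).mpr ⟨x, (natCast_zsmul _ _).symm⟩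
    eichlerShimura := by
      intro ℓ hℓ hℓN hℓS A hA σ hσ w
      have hℓp : ℓ ≠ p := fun h => hℓS (h ▸ hpS)
      have key := Bridge_red_eq _ (D.gal_frob ℓ hℓ hℓN hℓp A hA σ hσ k)
      have key' := LinearMap.congr_fun key w
      have e1 : inclA N S (heckeAlgebra.T hℓ hℓN hℓS) = GR.H.HeckeFull.T hℓ hℓN := Subtype.ext rfl
      have e2 : Tower_ψ S D k (ℓ : heckeAlgebra N 2 S) =
          Bridge_red (Λ := D.Λ) (p ^ k) ((ℓ : ℤ) • 1) := by
        show Bridge_red (Λ := D.Λ) (p ^ k) (D.hecke (inclA N S (ℓ : heckeAlgebra N 2 S))) = _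
        rw [map_natCast, map_natCast]
        congr 1
        simp
      show Tower_g D k σ (Tower_g D k σ w) - Tower_ψ S D k (heckeAlgebra.T hℓ hℓN hℓS)
        (Tower_g D k σ w) + Tower_ψ S D k (ℓ : heckeAlgebra N 2 S) w = 0
      rw [e2]
      show Bridge_red (Λ := D.Λ) (p ^ k) (D.gal k σ) (Bridge_red (Λ := D.Λ) (p ^ k) (D.gal k σ) w) -
        Bridge_red (Λ := D.Λ) (p ^ k) (D.hecke (inclA N S (heckeAlgebra.T hℓ hℓN hℓS)))
          (Bridge_red (Λ := D.Λ) (p ^ k) (D.gal k σ) w) + _ = 0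
      rw [e1]
      rw [map_add, map_sub, map_mul, map_mul, map_zero] at key'
      exact key'
    unramified := by
      intro q hq hqN hqp P hP σ hσ
      refine LinearMap.ext fun w => ?_
      have : Tower_g D k σ = 1 := by
        unfold Tower_g
        rw [← map_one (Bridge_red (Λ := D.Λ) (p ^ k))]
        exact Bridge_red_eq _ (D.gal_unram q hq hqN hqp P hP σ hσ k)
      exact LinearMap.congr_fun this w }

/-- the projection `Λ → W_k`. -/
noncomputable def prj (S : Set ℕ) (hpS : p ∈ S) (D : GR.H.TateData N p) (k : ℕ) :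
    D.Λ →+ (hgm S hpS D k).W :=
  (Submodule.mkQ (Bridge_sub D.Λ (p ^ k))).toAddMonoidHom

theorem prj_surjective (S : Set ℕ) (hpS : p ∈ S) (D : GR.H.TateData N p) (k : ℕ) :
    Function.Surjective (prj S hpS D k) := Submodule.mkQ_surjective _

theorem prj_eq_zero_iff (S : Set ℕ) (hpS : p ∈ S) (D : GR.H.TateData N p) (k : ℕ) (x : D.Λ) :
    prj S hpS D k x = 0 ↔ ∃ y : D.Λ, x = (p ^ k) • y := by
  have h1 : prj S hpS D k x = 0 ↔ x ∈ Bridge_sub D.Λ (p ^ k) := Submodule.Quotient.mk_eq_zero _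
  rw [h1, Bridge_mem_sub]
  simp only [natCast_zsmul]

theorem hgm_r_prj (S : Set ℕ) (hpS : p ∈ S) (D : GR.H.TateData N p) (k : ℕ) (σ : GQ) (x : D.Λ) :
    (hgm S hpS D k).r σ (prj S hpS D k x) = prj S hpS D k (D.gal k σ x) := rfl

theorem hgm_smul_prj (S : Set ℕ) (hpS : p ∈ S) (D : GR.H.TateData N p) (k : ℕ)
    (a : heckeAlgebra N 2 S) (x : D.Λ) :
    a • prj S hpS D k x = prj S hpS D k (D.hecke (inclA N S a) x) := rfl

theorem Tower_finite (hp : p.Prime) (S : Set ℕ) (hpS : p ∈ S) (D : GR.H.TateData N p) (k : ℕ) :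
    Finite (hgm S hpS D k).W := by
  have h : Module.IsTorsion ℤ (Wk D k) := by
    intro w
    refine ⟨⟨((p ^ k : ℕ) : ℤ), mem_nonZeroDivisors_of_ne_zero
      (by exact_mod_cast (pow_pos hp.pos k).ne')⟩, ?_⟩
    have := (hgm S hpS D k).killed w
    show ((p ^ k : ℕ) : ℤ) • w = 0
    rw [natCast_zsmul]
    exact this
  exact Module.finite_of_fg_torsion (Wk D k) h

theorem Tower_endCong_mono {Λ : Type} [AddCommGroup Λ] {m n : ℕ} (h : m ∣ n)
    {f g : Module.End ℤ Λ} (hfg : GR.H.EndCong n f g) : GR.H.EndCong m f g := by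
  obtain ⟨c, rfl⟩ := h
  obtain ⟨e, he⟩ := hfg
  exact ⟨(c : ℤ) • e, by rw [he, smul_smul]; push_cast; rfl⟩

theorem Tower_endCong_trans {Λ : Type} [AddCommGroup Λ] {m : ℕ} {f g h : Module.End ℤ Λ}
    (h1 : GR.H.EndCong m f g) (h2 : GR.H.EndCong m g h) : GR.H.EndCong m f h := by
  obtain ⟨a, ha⟩ := h1
  obtain ⟨b, hb⟩ := h2
  exact ⟨a + b, by rw [smul_add, ← ha, ← hb]; abel⟩

theorem Tower_endCong_one (D : GR.H.TateData N p) (k : ℕ) (hk : 1 ≤ k) (σ : GQ) :
    GR.H.EndCong (p ^ 1) (D.gal k σ) (D.gal 1 σ) := by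
  induction k, hk using Nat.le_induction with
  | base => exact ⟨0, by simp⟩
  | succ k hk ih =>
    exact Tower_endCong_trans (Tower_endCong_mono (pow_dvd_pow p hk) (D.gal_succ k σ)) ih

theorem Tower_le (Λ : Type) [AddCommGroup Λ] (p : ℕ) {k : ℕ} (hk : 1 ≤ k) :
    Bridge_sub Λ (p ^ k) ≤ (Bridge_sub Λ (p ^ 1)).comap (LinearMap.id : Λ →ₗ[ℤ] Λ) := by
  intro x hx
  obtain ⟨y, rfl⟩ := (Bridge_mem_sub _).mp hx
  refine (Bridge_mem_sub _).mpr ⟨((p ^ (k - 1) : ℕ) : ℤ) • y, ?_⟩
  rw [smul_smul, ← Nat.cast_mul, ← pow_add]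
  congr 3
  omega

open Classical in
/-- the reduction `W_k → W_1` (`0` for `k = 0`). -/
noncomputable def Tower_red (S : Set ℕ) (hpS : p ∈ S) (D : GR.H.TateData N p) (k : ℕ) :
    (hgm S hpS D k).W →ₗ[heckeAlgebra N 2 S] (hgm S hpS D 1).W :=
  if hk : 1 ≤ k then
    { toFun := Submodule.mapQ (Bridge_sub D.Λ (p ^ k)) (Bridge_sub D.Λ (p ^ 1)) LinearMap.id
        (Tower_le D.Λ p hk)
      map_add' := fun x y => map_add _ x y
      map_smul' := fun a x => by
        induction x using Submodule.Quotient.induction_on with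
        | _ x => rfl }
  else 0

theorem Tower_red_prj (S : Set ℕ) (hpS : p ∈ S) (D : GR.H.TateData N p) {k : ℕ} (hk : 1 ≤ k)
    (x : D.Λ) : Tower_red S hpS D k (prj S hpS D k x) = prj S hpS D 1 x := by
  unfold Tower_red
  rw [dif_pos hk]
  rfl

theorem prj_nsmul (S : Set ℕ) (hpS : p ∈ S) (D : GR.H.TateData N p) (k n : ℕ) (x : D.Λ) :
    prj S hpS D k (n • x) = n • prj S hpS D k x := map_nsmul _ _ _

/-- **(W1)** the tower of a `TateData` with faithful Hecke action. -/
noncomputable def towerOf (hp : p.Prime) (S : Set ℕ) (hpS : p ∈ S) (D : GR.H.TateData N p)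
    (hinj : Function.Injective D.hecke) : OrdTower N S p where
  M := hgm S hpS D
  finite := Tower_finite hp S hpS D
  c₀ := (exists_artinRees_bound (D.hecke.comp (inclA N S))
    (hinj.comp (Subalgebra.inclusion_injective _)) p).choose
  faithful := by
    intro k a ha
    have h1 : ∃ h : Module.End ℤ D.Λ, (D.hecke.comp (inclA N S)) a = (p ^ k : ℕ) • h := by
      refine Bridge_exists_smul (p ^ k) _ fun x => ?_
      have := ha (prj S hpS D k x)
      rw [hgm_smul_prj, prj_eq_zero_iff] at this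
      obtain ⟨y, hy⟩ := this
      exact ⟨y, by rw [natCast_zsmul]; exact hy⟩
    obtain ⟨a', ha'⟩ := (exists_artinRees_bound (D.hecke.comp (inclA N S))
      (hinj.comp (Subalgebra.inclusion_injective _)) p).choose_spec k a h1
    exact ⟨1, a', fun h => hp.one_lt.ne' (Nat.dvd_one.mp h), by rw [one_smul]; exact ha'⟩
  red := Tower_red S hpS D
  red_ker := by
    intro k hk x hx
    obtain ⟨x, rfl⟩ := prj_surjective S hpS D k x
    rw [Tower_red_prj S hpS D hk, prj_eq_zero_iff] at hx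
    obtain ⟨y, rfl⟩ := hx
    exact ⟨prj S hpS D k y, by rw [pow_one, prj_nsmul]⟩
  red_gal := by
    intro k σ x
    obtain ⟨x, rfl⟩ := prj_surjective S hpS D k x
    by_cases hk : 1 ≤ k
    · rw [hgm_r_prj, Tower_red_prj S hpS D hk, Tower_red_prj S hpS D hk, hgm_r_prj]
      exact LinearMap.congr_fun (Bridge_red_eq _ (Tower_endCong_one D k hk σ))
        (Submodule.Quotient.mk x)
    · unfold Tower_red
      rw [dif_neg hk]
      simp
  tors := by
    intro k j hj x hx
    obtain ⟨x, rfl⟩ := prj_surjective S hpS D k x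
    rw [← prj_nsmul, prj_eq_zero_iff] at hx
    obtain ⟨y, hy⟩ := hx
    refine ⟨prj S hpS D k y, ?_⟩
    rw [← prj_nsmul]
    congr 1
    have h1 : (p ^ j) • x = (p ^ j) • ((p ^ (k - j)) • y) := by
      rw [hy, smul_smul, ← pow_add]
      congr 2
      omega
    have h2 : ((p ^ j : ℕ) : ℤ) • (x - (p ^ (k - j)) • y) = 0 := by
      rw [natCast_zsmul, smul_sub, h1, sub_self]
    rcases smul_eq_zero.mp h2 with h3 | h3
    · exact absurd h3 (by exact_mod_cast (pow_pos hp.pos j).ne')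
    · exact sub_eq_zero.mp h3

theorem towerOf_M (hp : p.Prime) (S : Set ℕ) (hpS : p ∈ S) (D : GR.H.TateData N p)
    (hinj : Function.Injective D.hecke) (k : ℕ) : (towerOf hp S hpS D hinj).M k = hgm S hpS D k :=
  rfl

theorem towerOf_red (hp : p.Prime) (S : Set ℕ) (hpS : p ∈ S) (D : GR.H.TateData N p)
    (hinj : Function.Injective D.hecke) (k : ℕ) :
    (towerOf hp S hpS D hinj).red k = Tower_red S hpS D k := rfl

end Fermat.Agent.S33
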